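/-
S17 / strand H / BLOCK A (Mathlib only): the Gauss-Mahler comparison on a number field.

For a nonzero polynomial `p` over a number field `K` which splits over `K`, the logarithmic
height of its coefficient tuple and the sum of the logarithmic heights of its roots differ by at
most `[K : ℚ] * (deg p * log 2)` resp. `[K : ℚ] * log (deg p + 1)`.

Finite places: Gauss's lemma (`Polynomial.gaussNorm_mul`), exact.
Infinite places: Mahler measure (`mahlerMeasure_eq_leadingCoeff_mul_prod_roots`,
`norm_coeff_le_choose_mul_mahlerMeasure`, `mahlerMeasure_le_sqrt_natDegree_add_one_mul_supNorm`).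
Global: product formula for the leading coefficient.
-/
import Mathlib

set_option autoImplicit false

namespace Fermat.Agent.S17.H.AbsHeight.GaussMahlerNF

open Polynomial Height NumberField

variable {K : Type*} [Field K]

/-- The coefficient tuple of a polynomial, indexed by `Fin (natDegree + 1)`. -/
noncomputable def coeffTuple (p : K[X]) : Fin (p.natDegree + 1) → K := fun i => p.coeff i

lemma coeffTuple_apply (p : K[X]) (i : Fin (p.natDegree + 1)) : coeffTuple p i = p.coeff i := rfl

lemma coeffTuple_ne_zero {p : K[X]} (hp : p ≠ 0) : coeffTuple p ≠ 0 := by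
  intro h
  have h1 := congrFun h ⟨p.natDegree, Nat.lt_succ_self _⟩
  simp only [coeffTuple_apply, Pi.zero_apply, coeff_natDegree, leadingCoeff_eq_zero] at h1
  exact hp h1

/-! ### Local statements at one absolute value -/

section local_abs

variable (v : AbsoluteValue K ℝ)

/-- The supremum of the absolute values of the coefficients is the Gauss norm at radius `1`. -/
lemma iSup_coeffTuple_eq_gaussNorm (p : K[X]) :
    ⨆ i, v (coeffTuple p i) = p.gaussNorm v 1 := by
  apply le_antisymm
  · refine ciSup_le fun i => ?_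
    have := le_gaussNorm v p (c := 1) zero_le_one i
    simpa [coeffTuple_apply] using this
  · obtain ⟨i, hi⟩ := p.exists_eq_gaussNorm v 1
    rw [hi, one_pow, mul_one]
    by_cases h : i < p.natDegree + 1
    · exact Finite.le_ciSup_of_le (⟨i, h⟩ : Fin (p.natDegree + 1)) le_rfl
    · have : p.coeff i = 0 := coeff_eq_zero_of_natDegree_lt (by omega)
      rw [this, map_zero]
      exact Real.iSup_nonneg fun j => v.nonneg _

lemma gaussNorm_X_sub_C (z : K) : (X - C z : K[X]).gaussNorm v 1 = max (v z) 1 := by
  apply le_antisymm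
  · obtain ⟨i, hi⟩ := (X - C z : K[X]).exists_eq_gaussNorm v 1
    rw [hi, one_pow, mul_one, coeff_sub, coeff_X, coeff_C]
    rcases Nat.eq_zero_or_pos i with h0 | h0
    · subst h0; simp
    · rcases eq_or_ne i 1 with h1 | h1
      · subst h1; simp
      · have : (1 : ℕ) ≠ i := fun h => h1 h.symm
        simp [this, Nat.pos_iff_ne_zero.mp h0]
  · refine max_le ?_ ?_
    · have := le_gaussNorm v (X - C z : K[X]) (c := 1) zero_le_one 0
      simpa using this
    · have := le_gaussNorm v (X - C z : K[X]) (c := 1) zero_le_one 1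
      simpa using this

/-- **Gauss's lemma** for a split polynomial at a nonarchimedean absolute value. -/
lemma gaussNorm_C_mul_prod (hv : IsNonarchimedean v) (a : K) (R : Multiset K) :
    (C a * (R.map fun z => (X - C z : K[X])).prod).gaussNorm v 1 =
      v a * (R.map fun z => max (v z) 1).prod := by
  rw [gaussNorm_mul hv one_pos]
  congr 1
  · exact gaussNorm_C v 1 a
  · induction R using Multiset.induction with
    | empty =>
      simp only [Multiset.map_zero, Multiset.prod_zero]
      rw [← C_1, gaussNorm_C v 1 (1 : K), map_one]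
    | cons z R ih =>
      rw [Multiset.map_cons, Multiset.prod_cons, Multiset.map_cons, Multiset.prod_cons,
        gaussNorm_mul hv one_pos, ih, gaussNorm_X_sub_C]

/-- The local factor at a nonarchimedean absolute value, exact. -/
lemma iSup_coeffTuple_eq_of_isNonarchimedean (hv : IsNonarchimedean v) {p : K[X]}
    (hs : p.Splits) :
    ⨆ i, v (coeffTuple p i) = v p.leadingCoeff * (p.roots.map fun z => max (v z) 1).prod := by
  rw [iSup_coeffTuple_eq_gaussNorm]
  conv_lhs => rw [hs.eq_prod_roots]
  exact gaussNorm_C_mul_prod v hv _ _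

end local_abs

/-! ### Local statements at an infinite place -/

section infinite

lemma mahlerMeasure_map_embedding (w : InfinitePlace K) {p : K[X]} (hs : p.Splits) :
    (p.map w.embedding).mahlerMeasure =
      w p.leadingCoeff * (p.roots.map fun z => max (w z) 1).prod := by
  rw [mahlerMeasure_eq_leadingCoeff_mul_prod_roots, leadingCoeff_map, hs.roots_map,
    Multiset.map_map, InfinitePlace.norm_embedding_eq]
  congr 2
  ext z
  simp [InfinitePlace.norm_embedding_eq, max_comm]

lemma iSup_coeffTuple_le_of_infinitePlace (w : InfinitePlace K) {p : K[X]} (hs : p.Splits) :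
    ⨆ i, w (coeffTuple p i) ≤
      2 ^ p.natDegree * (w p.leadingCoeff * (p.roots.map fun z => max (w z) 1).prod) := by
  rw [← mahlerMeasure_map_embedding w hs]
  refine ciSup_le fun i => ?_
  have h1 := norm_coeff_le_choose_mul_mahlerMeasure (i : ℕ) (p.map w.embedding)
  rw [coeff_map, InfinitePlace.norm_embedding_eq, natDegree_map] at h1
  refine h1.trans ?_
  gcongr
  · exact mahlerMeasure_nonneg _
  · exact_mod_cast Nat.choose_le_two_pow _ _

lemma le_iSup_coeffTuple_of_infinitePlace (w : InfinitePlace K) {p : K[X]} (hs : p.Splits) :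
    w p.leadingCoeff * (p.roots.map fun z => max (w z) 1).prod ≤
      √(p.natDegree + 1) * ⨆ i, w (coeffTuple p i) := by
  rw [← mahlerMeasure_map_embedding w hs]
  have h1 := mahlerMeasure_le_sqrt_natDegree_add_one_mul_supNorm (p.map w.embedding)
  rw [natDegree_map] at h1
  refine h1.trans ?_
  gcongr
  obtain ⟨i, hi⟩ := (p.map w.embedding).exists_eq_supNorm
  rw [hi, coeff_map, InfinitePlace.norm_embedding_eq]
  by_cases h : i < p.natDegree + 1
  · exact Finite.le_ciSup_of_le (⟨i, h⟩ : Fin (p.natDegree + 1)) le_rfl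
  · have : p.coeff i = 0 := coeff_eq_zero_of_natDegree_lt (by omega)
    rw [this, map_zero]
    exact Real.iSup_nonneg fun j => apply_nonneg _ _

end infinite

/-! ### Global statements -/

section global

variable [NumberField K]

lemma hasFiniteMulSupport_max_one (z : K) :
    (fun v : FinitePlace K => max (v z) 1).HasFiniteMulSupport := by
  rcases eq_or_ne z 0 with rfl | hz
  · simp [Function.HasFiniteMulSupport]
  · exact (FinitePlace.hasFiniteMulSupport hz).max Function.hasFiniteMulSupport_one

lemma hasFiniteMulSupport_prod_max_one (R : Multiset K) :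
    (fun v : FinitePlace K => (R.map fun z => max (v z) 1).prod).HasFiniteMulSupport := by
  induction R using Multiset.induction with
  | empty => simp [Function.HasFiniteMulSupport]
  | cons z R ih =>
    simp only [Multiset.map_cons, Multiset.prod_cons]
    exact (hasFiniteMulSupport_max_one z).mul ih

/-- The product of the heights of the elements of a multiset, as a product of local factors. -/
lemma prod_mulHeight₁_eq (R : Multiset K) :
    (R.map mulHeight₁).prod =
      (∏ w : InfinitePlace K, ((R.map fun z => max (w z) 1).prod) ^ w.mult) *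
        ∏ᶠ v : FinitePlace K, (R.map fun z => max (v z) 1).prod := by
  induction R using Multiset.induction with
  | empty => simp
  | cons z R ih =>
    simp only [Multiset.map_cons, Multiset.prod_cons]
    rw [ih, NumberField.mulHeight₁_eq,
      finprod_mul_distrib (hasFiniteMulSupport_max_one z) (hasFiniteMulSupport_prod_max_one R)]
    simp only [mul_pow, Finset.prod_mul_distrib]
    ring

omit [NumberField K] in
lemma prod_max_one_nonneg (v : AbsoluteValue K ℝ) (R : Multiset K) :
    0 ≤ (R.map fun z => max (v z) 1).prod :=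
  Multiset.prod_nonneg fun x hx => by
    obtain ⟨z, -, rfl⟩ := Multiset.mem_map.mp hx
    exact le_max_of_le_right zero_le_one

/-- The finite part of the height of the coefficient tuple of a split polynomial. -/
lemma finprod_iSup_coeffTuple_eq {p : K[X]} (hp : p ≠ 0) (hs : p.Splits) :
    (∏ᶠ v : FinitePlace K, ⨆ i, v (coeffTuple p i)) =
      (∏ᶠ v : FinitePlace K, v p.leadingCoeff) *
        ∏ᶠ v : FinitePlace K, (p.roots.map fun z => max (v z) 1).prod := by
  have ha : p.leadingCoeff ≠ 0 := leadingCoeff_ne_zero.mpr hp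
  rw [← finprod_mul_distrib (FinitePlace.hasFiniteMulSupport ha)
    (hasFiniteMulSupport_prod_max_one _)]
  refine finprod_congr fun v => ?_
  exact iSup_coeffTuple_eq_of_isNonarchimedean v.val (FinitePlace.add_le v) hs

/-- **Gauss-Mahler, upper half** (multiplicative form). -/
theorem mulHeight_coeffTuple_le {p : K[X]} (hp : p ≠ 0) (hs : p.Splits) :
    mulHeight (coeffTuple p) ≤
      (2 ^ p.natDegree) ^ Module.finrank ℚ K * (p.roots.map mulHeight₁).prod := by
  have ha : p.leadingCoeff ≠ 0 := leadingCoeff_ne_zero.mpr hp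
  rw [NumberField.mulHeight_eq (coeffTuple_ne_zero hp), prod_mulHeight₁_eq,
    finprod_iSup_coeffTuple_eq hp hs]
  have hprod := prod_abs_eq_one (K := K) ha
  have hinf : (∏ w : InfinitePlace K, (⨆ i, w (coeffTuple p i)) ^ w.mult) ≤
      (2 ^ p.natDegree) ^ Module.finrank ℚ K *
        ((∏ w : InfinitePlace K, w p.leadingCoeff ^ w.mult) *
          ∏ w : InfinitePlace K, ((p.roots.map fun z => max (w z) 1).prod) ^ w.mult) := by
    rw [← InfinitePlace.sum_mult_eq, ← Finset.prod_pow_eq_pow_sum, ← Finset.prod_mul_distrib,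
      ← Finset.prod_mul_distrib]
    refine Finset.prod_le_prod (fun w _ => pow_nonneg (Real.iSup_nonneg fun j => apply_nonneg _ _) _)
      fun w _ => ?_
    rw [← mul_pow, ← mul_pow]
    exact pow_le_pow_left₀ (Real.iSup_nonneg fun j => apply_nonneg _ _)
      (iSup_coeffTuple_le_of_infinitePlace w hs) _
  have hFa : 0 ≤ ∏ᶠ v : FinitePlace K, v p.leadingCoeff := finprod_nonneg fun v => apply_nonneg _ _
  have hFR : 0 ≤ ∏ᶠ v : FinitePlace K, (p.roots.map fun z => max (v z) 1).prod :=
    finprod_nonneg fun v => prod_max_one_nonneg v.val _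
  calc (∏ w : InfinitePlace K, (⨆ i, w (coeffTuple p i)) ^ w.mult) *
        ((∏ᶠ v : FinitePlace K, v p.leadingCoeff) *
          ∏ᶠ v : FinitePlace K, (p.roots.map fun z => max (v z) 1).prod)
      ≤ ((2 ^ p.natDegree) ^ Module.finrank ℚ K *
        ((∏ w : InfinitePlace K, w p.leadingCoeff ^ w.mult) *
          ∏ w : InfinitePlace K, ((p.roots.map fun z => max (w z) 1).prod) ^ w.mult)) *
        ((∏ᶠ v : FinitePlace K, v p.leadingCoeff) *
          ∏ᶠ v : FinitePlace K, (p.roots.map fun z => max (v z) 1).prod) :=
        mul_le_mul_of_nonneg_right hinf (mul_nonneg hFa hFR)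
    _ = (2 ^ p.natDegree) ^ Module.finrank ℚ K *
        (((∏ w : InfinitePlace K, w p.leadingCoeff ^ w.mult) *
            ∏ᶠ v : FinitePlace K, v p.leadingCoeff) *
          ((∏ w : InfinitePlace K, ((p.roots.map fun z => max (w z) 1).prod) ^ w.mult) *
            ∏ᶠ v : FinitePlace K, (p.roots.map fun z => max (v z) 1).prod)) := by ring
    _ = _ := by rw [hprod, one_mul]

/-- **Gauss-Mahler, lower half** (multiplicative form). -/
theorem prod_mulHeight₁_roots_le {p : K[X]} (hp : p ≠ 0) (hs : p.Splits) :
    (p.roots.map mulHeight₁).prod ≤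
      √(p.natDegree + 1) ^ Module.finrank ℚ K * mulHeight (coeffTuple p) := by
  have ha : p.leadingCoeff ≠ 0 := leadingCoeff_ne_zero.mpr hp
  rw [NumberField.mulHeight_eq (coeffTuple_ne_zero hp), prod_mulHeight₁_eq,
    finprod_iSup_coeffTuple_eq hp hs]
  have hprod := prod_abs_eq_one (K := K) ha
  have hinf : ((∏ w : InfinitePlace K, w p.leadingCoeff ^ w.mult) *
          ∏ w : InfinitePlace K, ((p.roots.map fun z => max (w z) 1).prod) ^ w.mult) ≤
      √(p.natDegree + 1) ^ Module.finrank ℚ K *
        (∏ w : InfinitePlace K, (⨆ i, w (coeffTuple p i)) ^ w.mult) := by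
    rw [← InfinitePlace.sum_mult_eq, ← Finset.prod_pow_eq_pow_sum, ← Finset.prod_mul_distrib,
      ← Finset.prod_mul_distrib]
    refine Finset.prod_le_prod (fun w _ => mul_nonneg (pow_nonneg (apply_nonneg _ _) _)
      (pow_nonneg (prod_max_one_nonneg w.val _) _)) fun w _ => ?_
    rw [← mul_pow, ← mul_pow]
    exact pow_le_pow_left₀ (mul_nonneg (apply_nonneg _ _) (prod_max_one_nonneg w.val _))
      (le_iSup_coeffTuple_of_infinitePlace w hs) _
  have hFa : 0 ≤ ∏ᶠ v : FinitePlace K, v p.leadingCoeff := finprod_nonneg fun v => apply_nonneg _ _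
  have hFR : 0 ≤ ∏ᶠ v : FinitePlace K, (p.roots.map fun z => max (v z) 1).prod :=
    finprod_nonneg fun v => prod_max_one_nonneg v.val _
  calc (∏ w : InfinitePlace K, ((p.roots.map fun z => max (w z) 1).prod) ^ w.mult) *
        ∏ᶠ v : FinitePlace K, (p.roots.map fun z => max (v z) 1).prod
      = ((∏ w : InfinitePlace K, w p.leadingCoeff ^ w.mult) *
            ∏ᶠ v : FinitePlace K, v p.leadingCoeff) *
          ((∏ w : InfinitePlace K, ((p.roots.map fun z => max (w z) 1).prod) ^ w.mult) *
            ∏ᶠ v : FinitePlace K, (p.roots.map fun z => max (v z) 1).prod) := by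
        rw [hprod, one_mul]
    _ = ((∏ w : InfinitePlace K, w p.leadingCoeff ^ w.mult) *
          ∏ w : InfinitePlace K, ((p.roots.map fun z => max (w z) 1).prod) ^ w.mult) *
        ((∏ᶠ v : FinitePlace K, v p.leadingCoeff) *
          ∏ᶠ v : FinitePlace K, (p.roots.map fun z => max (v z) 1).prod) := by ring
    _ ≤ (√(p.natDegree + 1) ^ Module.finrank ℚ K *
        (∏ w : InfinitePlace K, (⨆ i, w (coeffTuple p i)) ^ w.mult)) *
        ((∏ᶠ v : FinitePlace K, v p.leadingCoeff) *
          ∏ᶠ v : FinitePlace K, (p.roots.map fun z => max (v z) 1).prod) :=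
        mul_le_mul_of_nonneg_right hinf (mul_nonneg hFa hFR)
    _ = _ := by ring

lemma log_prod_mulHeight₁ (R : Multiset K) :
    Real.log (R.map mulHeight₁).prod = (R.map logHeight₁).sum := by
  rw [Real.log_multiset_prod]
  · rw [Multiset.map_map]; rfl
  · intro x hx
    obtain ⟨z, -, rfl⟩ := Multiset.mem_map.mp hx
    exact mulHeight₁_ne_zero z

lemma prod_mulHeight₁_pos (R : Multiset K) : 0 < (R.map mulHeight₁).prod :=
  Multiset.prod_pos fun x hx => by
    obtain ⟨z, -, rfl⟩ := Multiset.mem_map.mp hx
    exact mulHeight₁_pos z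

/-- **Gauss-Mahler, upper half**: the height of the coefficient tuple of a split polynomial is
at most the sum of the heights of its roots, up to `[K : ℚ] * deg p * log 2`. -/
theorem logHeight_coeffTuple_le {p : K[X]} (hp : p ≠ 0) (hs : p.Splits) :
    logHeight (coeffTuple p) ≤
      (p.roots.map logHeight₁).sum + Module.finrank ℚ K * (p.natDegree * Real.log 2) := by
  have h := mulHeight_coeffTuple_le hp hs
  have h2 := Real.log_le_log (mulHeight_pos _) h
  rw [Real.log_mul (by positivity) (prod_mulHeight₁_pos _).ne', log_prod_mulHeight₁,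
    Real.log_pow, Real.log_pow] at h2
  rw [logHeight_eq_log_mulHeight]
  linarith

/-- **Gauss-Mahler, lower half** (sharp constant). -/
theorem sum_logHeight₁_roots_le' {p : K[X]} (hp : p ≠ 0) (hs : p.Splits) :
    (p.roots.map logHeight₁).sum ≤
      logHeight (coeffTuple p) + Module.finrank ℚ K * (Real.log (p.natDegree + 1) / 2) := by
  have h := prod_mulHeight₁_roots_le hp hs
  have h2 := Real.log_le_log (prod_mulHeight₁_pos _) h
  have hsq : (0 : ℝ) < √(p.natDegree + 1) := Real.sqrt_pos.mpr (by positivity)
  rw [Real.log_mul (by positivity) (mulHeight_pos _).ne', log_prod_mulHeight₁,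
    Real.log_pow, Real.log_sqrt (by positivity)] at h2
  rw [logHeight_eq_log_mulHeight]
  linarith

/-- **Gauss-Mahler, lower half**. -/
theorem sum_logHeight₁_roots_le {p : K[X]} (hp : p ≠ 0) (hs : p.Splits) :
    (p.roots.map logHeight₁).sum ≤
      logHeight (coeffTuple p) + Module.finrank ℚ K * Real.log (p.natDegree + 1) := by
  refine (sum_logHeight₁_roots_le' hp hs).trans ?_
  have h0 : 0 ≤ Real.log ((p.natDegree : ℝ) + 1) := Real.log_nonneg (by
    have : (0 : ℝ) ≤ p.natDegree := Nat.cast_nonneg _
    linarith)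
  have hd : (0 : ℝ) ≤ Module.finrank ℚ K := Nat.cast_nonneg _
  have : (Module.finrank ℚ K : ℝ) * (Real.log ((p.natDegree : ℝ) + 1) / 2) ≤
      Module.finrank ℚ K * Real.log ((p.natDegree : ℝ) + 1) :=
    mul_le_mul_of_nonneg_left (by linarith) hd
  linarith

/-- **Gauss-Mahler**, two-sided. -/
theorem abs_logHeight_coeffTuple_sub_sum_roots_le {p : K[X]} (hp : p ≠ 0) (hs : p.Splits) :
    |logHeight (coeffTuple p) - (p.roots.map logHeight₁).sum| ≤
      Module.finrank ℚ K * (p.natDegree * Real.log 2 + Real.log (p.natDegree + 1)) := by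
  have h1 := logHeight_coeffTuple_le hp hs
  have h2 := sum_logHeight₁_roots_le hp hs
  have h0 : 0 ≤ Real.log ((p.natDegree : ℝ) + 1) := Real.log_nonneg (by
    have : (0 : ℝ) ≤ p.natDegree := Nat.cast_nonneg _
    linarith)
  have hl2 : 0 ≤ (p.natDegree : ℝ) * Real.log 2 :=
    mul_nonneg (Nat.cast_nonneg _) (Real.log_nonneg one_le_two)
  have hd : (0 : ℝ) ≤ Module.finrank ℚ K := Nat.cast_nonneg _
  rw [abs_le, mul_add]
  constructor
  · nlinarith [mul_nonneg hd hl2]
  · nlinarith [mul_nonneg hd h0]

end global

end Fermat.Agent.S17.H.AbsHeight.GaussMahlerNF
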