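import Fermat.Agent.S17.H.A.Abs
import Fermat.Agent.S17.H.AbsHeight.GaussMahlerNF

/-!
# Program MW, strand H, block A: Gauss–Mahler over the algebraic closure of ℚ

For a non-zero polynomial `p` over `AlgebraicClosure ℚ` of degree `≤ M`, the absolute logarithmic
height `hT` of its coefficient vector (indexed by `Fin (M + 1)`, trailing zeros allowed) differs
from the sum of the heights `hQ` of its roots (with multiplicity) by at most
`M log 2 + log (M + 1)`:

* `hT_coeffVec_le_sum_hQ_roots` : `hT (coefficients) ≤ ∑ hQ (roots) + M log 2`;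
* `sum_hQ_roots_le_hT_coeffVec` : `∑ hQ (roots) ≤ hT (coefficients) + log (M + 1)`;
* `abs_hT_coeffVec_sub_sum_hQ_roots_le` : the two-sided form;
* `abs_hT_sub_sum_hQ_roots_monomial_le` : the same for the polynomial `∑ j, monomial j (c j)`
  attached to a non-zero tuple `c : Fin (M + 1) → AlgebraicClosure ℚ`.

The proofs descend the polynomial together with its roots to a number field
(`exists_lift_poly_Qb`) and apply the number field statements of `AbsHeight/GaussMahlerNF.lean`;
the constants there are linear in the degree of the field, so they become field-free after the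
normalisation of `hT`.

Also: zero padding does not change heights (`mulHeight_comp_of_support_subset`,
`logHeight_comp_of_support_subset`, `hT_comp_of_support_subset`).
-/

set_option autoImplicit false

namespace Fermat.Agent.S17.H

open Polynomial Height NumberField IntermediateField Module
open Fermat.Agent.S17.H.AbsHeight.GaussMahlerNF

/-! ### Zero padding -/

/-- Restricting a tuple along an injection whose range contains the support does not change the
multiplicative height. -/
theorem mulHeight_comp_of_support_subset {K : Type*} [Field K] [AdmissibleAbsValues K]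
    {ι ι' : Type*} [Finite ι] [Finite ι'] {f : ι → ι'} (hf : Function.Injective f) (y : ι' → K)
    (hy : ∀ j, y j ≠ 0 → j ∈ Set.range f) : mulHeight (y ∘ f) = mulHeight y := by
  classical
  let e : ι ⊕ ((Set.range f)ᶜ : Set ι') ≃ ι' :=
    (Equiv.sumCongr (Equiv.ofInjective f hf) (Equiv.refl _)).trans
      (Equiv.Set.sumCompl (Set.range f))
  have he : y ∘ e = Sum.elim (y ∘ f) (0 : ((Set.range f)ᶜ : Set ι') → K) := by
    funext i
    cases i with
    | inl i => simp [e]
    | inr j =>
      have hj : e (Sum.inr j) = j.1 := by simp [e]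
      simp only [Function.comp_apply, Sum.elim_inr, Pi.zero_apply, hj]
      by_contra h
      exact j.2 (hy _ h)
  rw [← mulHeight_comp_equiv e y, he, mulHeight_sumElim_zero_eq]

/-- Restricting a tuple along an injection whose range contains the support does not change the
logarithmic height. -/
theorem logHeight_comp_of_support_subset {K : Type*} [Field K] [AdmissibleAbsValues K]
    {ι ι' : Type*} [Finite ι] [Finite ι'] {f : ι → ι'} (hf : Function.Injective f) (y : ι' → K)
    (hy : ∀ j, y j ≠ 0 → j ∈ Set.range f) : logHeight (y ∘ f) = logHeight y := by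
  rw [logHeight_eq_log_mulHeight, logHeight_eq_log_mulHeight,
    mulHeight_comp_of_support_subset hf y hy]

/-- Restricting a tuple of algebraic numbers along an injection whose range contains the support
does not change the absolute height. -/
theorem hT_comp_of_support_subset {ι ι' : Type*} [Finite ι] [Finite ι'] {f : ι → ι'}
    (hf : Function.Injective f) (y : ι' → AlgebraicClosure ℚ)
    (hy : ∀ j, y j ≠ 0 → j ∈ Set.range f) : hT (y ∘ f) = hT y := by
  obtain ⟨A, hA, y', hy'⟩ := exists_lift_Qb y
  have h1 : y = fun i => (y' i : AlgebraicClosure ℚ) := funext fun i => (hy' i).symm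
  have h2 : y ∘ f = fun i => ((y' ∘ f) i : AlgebraicClosure ℚ) := by
    funext i
    simp [h1]
  have h3 : ∀ j, y' j ≠ 0 → j ∈ Set.range f := by
    intro j hj
    apply hy
    rw [← hy' j]
    intro h
    exact hj (Subtype.ext h)
  rw [h2, hT_coe, logHeight_comp_of_support_subset hf y' h3, ← hT_coe, ← h1]

/-! ### Descent of a polynomial and its roots to a number field -/

/-- Every polynomial over the algebraic closure of ℚ comes from a polynomial over a number field
which splits there. -/
theorem exists_lift_poly_Qb (p : (AlgebraicClosure ℚ)[X]) :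
    ∃ (A : IntermediateField ℚ (AlgebraicClosure ℚ)) (_ : NumberField A) (p' : A[X]),
      p'.map (algebraMap A (AlgebraicClosure ℚ)) = p ∧ p'.Splits := by
  classical
  obtain ⟨A, hA, x', y', hx', hy'⟩ :=
    exists_lift₂_Qb (fun i : Fin (p.natDegree + 1) => p.coeff i)
      (fun r : p.roots.toFinset => (r : AlgebraicClosure ℚ))
  have hlift : p ∈ Polynomial.lifts (algebraMap A (AlgebraicClosure ℚ)) := by
    rw [Polynomial.lifts_iff_coeff_lifts]
    intro n
    by_cases hn : n < p.natDegree + 1
    · exact ⟨x' ⟨n, hn⟩, hx' ⟨n, hn⟩⟩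
    · exact ⟨0, by rw [map_zero, coeff_eq_zero_of_natDegree_lt (by omega)]⟩
  obtain ⟨p', hp'⟩ := (Polynomial.mem_lifts p).mp hlift
  refine ⟨A, hA, p', hp', ?_⟩
  refine Splits.of_splits_map (algebraMap A (AlgebraicClosure ℚ)) ?_ ?_
  · rw [hp']
    exact IsAlgClosed.splits p
  · intro a ha
    rw [hp'] at ha
    exact ⟨y' ⟨a, Multiset.mem_toFinset.mpr ha⟩, hy' ⟨a, Multiset.mem_toFinset.mpr ha⟩⟩

/-- The dictionary between the absolute heights of a polynomial over the algebraic closure of ℚ
(coefficient vector, roots) and the heights over a number field of definition. -/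
theorem exists_lift_poly_height_Qb {M : ℕ} {p : (AlgebraicClosure ℚ)[X]} (hp : p ≠ 0)
    (hM : p.natDegree ≤ M) :
    ∃ (A : IntermediateField ℚ (AlgebraicClosure ℚ)) (_ : NumberField A) (p' : A[X]),
      p' ≠ 0 ∧ p'.Splits ∧ p'.natDegree = p.natDegree ∧
      hT (fun i : Fin (M + 1) => p.coeff i) = logHeight (coeffTuple p') / (finrank ℚ A : ℝ) ∧
      (p.roots.map hQ).sum = (p'.roots.map logHeight₁).sum / (finrank ℚ A : ℝ) := by
  obtain ⟨A, hA, p', hp', hs⟩ := exists_lift_poly_Qb p
  have hp0 : p' ≠ 0 := by
    rintro rfl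
    exact hp (by rw [← hp', Polynomial.map_zero])
  have hdeg : p'.natDegree = p.natDegree := by rw [← hp', natDegree_map]
  refine ⟨A, hA, p', hp0, hs, hdeg, ?_, ?_⟩
  · have h1 : (fun i : Fin (M + 1) => p.coeff i) =
        fun i => (((fun i : Fin (M + 1) => p'.coeff i) i : A) : AlgebraicClosure ℚ) := by
      funext i
      rw [← hp', coeff_map]
      rfl
    rw [h1, hT_coe]
    congr 1
    have hle : p'.natDegree + 1 ≤ M + 1 := by omega
    have h2 := logHeight_comp_of_support_subset (f := Fin.castLE hle) (Fin.castLE_injective hle)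
      (fun i : Fin (M + 1) => p'.coeff i) (by
        intro j hj
        have hj' : (j : ℕ) ≤ p'.natDegree := le_natDegree_of_ne_zero hj
        exact ⟨⟨j, by omega⟩, Fin.ext rfl⟩)
    rw [← h2]
    rfl
  · rw [← hp', hs.roots_map, Multiset.map_map]
    have h3 : (hQ ∘ (algebraMap A (AlgebraicClosure ℚ))) =
        fun a => logHeight₁ a * ((finrank ℚ A : ℝ))⁻¹ := by
      funext a
      rw [← div_eq_mul_inv]
      exact hQ_coe A a
    rw [h3, Multiset.sum_map_mul_right, div_eq_mul_inv]

/-! ### Gauss–Mahler over the algebraic closure of ℚ -/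

/-- **Gauss–Mahler, upper bound**: the height of the coefficient vector of a polynomial is at most
the sum of the heights of its roots plus `M log 2`. -/
theorem hT_coeffVec_le_sum_hQ_roots {M : ℕ} {p : (AlgebraicClosure ℚ)[X]} (hp : p ≠ 0)
    (hM : p.natDegree ≤ M) :
    hT (fun i : Fin (M + 1) => p.coeff i) ≤ (p.roots.map hQ).sum + M * Real.log 2 := by
  obtain ⟨A, hA, p', hp0, hs, hdeg, h1, h2⟩ := exists_lift_poly_height_Qb hp hM
  have hd := finrank_pos_Qb A
  have key := logHeight_coeffTuple_le hp0 hs
  have hn : (p'.natDegree : ℝ) * Real.log 2 ≤ M * Real.log 2 :=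
    mul_le_mul_of_nonneg_right (by rw [hdeg]; exact_mod_cast hM) (Real.log_nonneg one_le_two)
  rw [h1, h2, div_le_iff₀ hd]
  have h3 : ((p'.roots.map logHeight₁).sum / (finrank ℚ A : ℝ) + M * Real.log 2) *
      (finrank ℚ A : ℝ) = (p'.roots.map logHeight₁).sum + (finrank ℚ A : ℝ) * (M * Real.log 2) := by
    field_simp
  rw [h3]
  have h4 := mul_le_mul_of_nonneg_left hn hd.le
  linarith

/-- **Gauss–Mahler, lower bound**: the sum of the heights of the roots of a polynomial is at most
the height of its coefficient vector plus `log (M + 1)`. -/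
theorem sum_hQ_roots_le_hT_coeffVec {M : ℕ} {p : (AlgebraicClosure ℚ)[X]} (hp : p ≠ 0)
    (hM : p.natDegree ≤ M) :
    (p.roots.map hQ).sum ≤ hT (fun i : Fin (M + 1) => p.coeff i) + Real.log (M + 1) := by
  obtain ⟨A, hA, p', hp0, hs, hdeg, h1, h2⟩ := exists_lift_poly_height_Qb hp hM
  have hd := finrank_pos_Qb A
  have key := sum_logHeight₁_roots_le hp0 hs
  have hn : Real.log ((p'.natDegree : ℝ) + 1) ≤ Real.log ((M : ℝ) + 1) :=
    Real.log_le_log (by positivity) (by rw [hdeg]; exact_mod_cast Nat.succ_le_succ hM)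
  rw [h1, h2, div_le_iff₀ hd]
  have h3 : (logHeight (coeffTuple p') / (finrank ℚ A : ℝ) + Real.log ((M : ℝ) + 1)) *
      (finrank ℚ A : ℝ) = logHeight (coeffTuple p') + (finrank ℚ A : ℝ) * Real.log ((M : ℝ) + 1) := by
    field_simp
  rw [h3]
  have h4 := mul_le_mul_of_nonneg_left hn hd.le
  linarith

/-- **Gauss–Mahler over the algebraic closure of ℚ**, two-sided form. -/
theorem abs_hT_coeffVec_sub_sum_hQ_roots_le {M : ℕ} {p : (AlgebraicClosure ℚ)[X]} (hp : p ≠ 0)
    (hM : p.natDegree ≤ M) :
    |hT (fun i : Fin (M + 1) => p.coeff i) - (p.roots.map hQ).sum| ≤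
      M * Real.log 2 + Real.log (M + 1) := by
  have h1 := hT_coeffVec_le_sum_hQ_roots hp hM
  have h2 := sum_hQ_roots_le_hT_coeffVec hp hM
  have h3 : 0 ≤ (M : ℝ) * Real.log 2 := mul_nonneg (Nat.cast_nonneg _) (Real.log_nonneg one_le_two)
  have h4 : 0 ≤ Real.log ((M : ℝ) + 1) := Real.log_nonneg (by linarith [Nat.cast_nonneg (α := ℝ) M])
  rw [abs_le]
  constructor <;> linarith

/-! ### The polynomial attached to a coefficient vector -/

theorem coeff_sum_monomial_fin {R : Type*} [Semiring R] {M : ℕ} (c : Fin (M + 1) → R)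
    (i : Fin (M + 1)) :
    (∑ j : Fin (M + 1), Polynomial.monomial (j : ℕ) (c j)).coeff i = c i := by
  classical
  rw [Polynomial.finsetSum_coeff]
  rw [Finset.sum_eq_single i]
  · simp
  · intro j _ hj
    rw [Polynomial.coeff_monomial, if_neg]
    exact fun h => hj (Fin.ext h)
  · intro h
    exact absurd (Finset.mem_univ i) h

theorem natDegree_sum_monomial_fin_le {R : Type*} [Semiring R] {M : ℕ} (c : Fin (M + 1) → R) :
    (∑ j : Fin (M + 1), Polynomial.monomial (j : ℕ) (c j)).natDegree ≤ M := by
  refine Polynomial.natDegree_sum_le_of_forall_le _ _ fun j _ => ?_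
  exact (Polynomial.natDegree_monomial_le _).trans (Nat.lt_succ_iff.mp j.2)

theorem sum_monomial_fin_ne_zero {R : Type*} [Semiring R] {M : ℕ} {c : Fin (M + 1) → R}
    (hc : c ≠ 0) : (∑ j : Fin (M + 1), Polynomial.monomial (j : ℕ) (c j)) ≠ 0 := by
  intro h
  apply hc
  funext i
  rw [← coeff_sum_monomial_fin c i, h]
  simp

/-- **Gauss–Mahler** for the polynomial `∑ j, c j X ^ j` attached to a non-zero tuple `c`. -/
theorem abs_hT_sub_sum_hQ_roots_monomial_le {M : ℕ} {c : Fin (M + 1) → AlgebraicClosure ℚ}
    (hc : c ≠ 0) :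
    |hT c - ((∑ j : Fin (M + 1), Polynomial.monomial (j : ℕ) (c j)).roots.map hQ).sum| ≤
      M * Real.log 2 + Real.log (M + 1) := by
  have h := abs_hT_coeffVec_sub_sum_hQ_roots_le (sum_monomial_fin_ne_zero hc)
    (natDegree_sum_monomial_fin_le c)
  have h1 : (fun i : Fin (M + 1) =>
      (∑ j : Fin (M + 1), Polynomial.monomial (j : ℕ) (c j)).coeff i) = c :=
    funext fun i => coeff_sum_monomial_fin c i
  rwa [h1] at h

end Fermat.Agent.S17.H
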