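import Fermat.Agent.S17.H.A.Abs

/-!
# Program MW, strand H, block A: the tuple-height API over the algebraic closure of ℚ

The `hT` / `hQ` forms of Mathlib's statements on heights of tuples over a number field, so that
consumers do not have to descend to a number field themselves:

* `hT_comp_le` : the height of a sub-tuple (more generally of `x ∘ f`) is at most the height;
* `hT_fun_mul_eq` : **Segre**, `hT (fun (i, j) => x i * y j) = hT x + hT y`;
* `hT_fun_prod_eq` : Segre for finite products of tuples;
* `hT_mul_le` : `hT (x * y) ≤ hT x + hT y` (pointwise product);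
* `hT_pair` : `hT ![a, b] = hQ (a / b)` for `b ≠ 0`;
* `hQ_div_le_hT`, `hQ_le_hT_of_eq_one` : the height of a ratio of two coordinates is at most the
  height of the tuple;
* `hT_const`, `hT_one`.
-/

set_option autoImplicit false

namespace Fermat.Agent.S17.H.Tuple

open Height NumberField IntermediateField Module

/-- The height of `x ∘ f` (in particular of a sub-tuple) is at most the height of `x`. -/
theorem hT_comp_le {ι ι' : Type*} [Finite ι] [Finite ι'] (f : ι → ι')
    (x : ι' → AlgebraicClosure ℚ) : hT (x ∘ f) ≤ hT x := by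
  obtain ⟨A, hA, x', hx'⟩ := exists_lift_Qb x
  obtain rfl : x = fun i => (x' i : AlgebraicClosure ℚ) := funext fun i => (hx' i).symm
  have h2 : (fun i => (x' i : AlgebraicClosure ℚ)) ∘ f =
      fun i => ((x' ∘ f) i : AlgebraicClosure ℚ) := rfl
  rw [h2, hT_coe, hT_coe]
  exact div_le_div_of_nonneg_right (logHeight_comp_le f x') (finrank_pos_Qb A).le

/-- **Segre**: the height of the multiplication table of two non-zero tuples is the sum of their
heights. -/
theorem hT_fun_mul_eq {ι ι' : Type*} [Finite ι] [Finite ι'] {x : ι → AlgebraicClosure ℚ}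
    (hx : x ≠ 0) {y : ι' → AlgebraicClosure ℚ} (hy : y ≠ 0) :
    hT (fun p : ι × ι' => x p.1 * y p.2) = hT x + hT y := by
  obtain ⟨A, hA, x', y', hx', hy'⟩ := exists_lift₂_Qb x y
  obtain rfl : x = fun i => (x' i : AlgebraicClosure ℚ) := funext fun i => (hx' i).symm
  obtain rfl : y = fun i => (y' i : AlgebraicClosure ℚ) := funext fun i => (hy' i).symm
  have hx0 : x' ≠ 0 := by
    rintro rfl
    exact hx rfl
  have hy0 : y' ≠ 0 := by
    rintro rfl
    exact hy rfl
  have h3 : (fun p : ι × ι' => (x' p.1 : AlgebraicClosure ℚ) * (y' p.2 : AlgebraicClosure ℚ)) =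
      fun p => (((fun p : ι × ι' => x' p.1 * y' p.2) p : A) : AlgebraicClosure ℚ) := rfl
  rw [h3, hT_coe, hT_coe, hT_coe, logHeight_fun_mul_eq hx0 hy0, add_div]

/-- **Segre** for finite products: the height of the multiplication table of a finite family of
non-zero tuples is the sum of their heights. -/
theorem hT_fun_prod_eq {α : Type*} [Fintype α] {ι : α → Type*} [∀ a, Finite (ι a)]
    {x : (a : α) → ι a → AlgebraicClosure ℚ} (hx : ∀ a, x a ≠ 0) :
    hT (fun I : (a : α) → ι a => ∏ a, x a (I a)) = ∑ a, hT (x a) := by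
  obtain ⟨A, hA, z, hz⟩ := exists_lift_Qb (fun s : (Σ a, ι a) => x s.1 s.2)
  let x' : (a : α) → ι a → A := fun a i => z ⟨a, i⟩
  have hxx : ∀ a, x a = fun i => (x' a i : AlgebraicClosure ℚ) := fun a =>
    funext fun i => (hz ⟨a, i⟩).symm
  have hx0 : ∀ a, x' a ≠ 0 := by
    intro a h
    apply hx a
    rw [hxx a, h]
    rfl
  have h3 : (fun I : (a : α) → ι a => ∏ a, x a (I a)) =
      fun I => (((fun I : (a : α) → ι a => ∏ a, x' a (I a)) I : A) : AlgebraicClosure ℚ) := by
    funext I
    rw [← IntermediateField.algebraMap_apply, map_prod]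
    refine Finset.prod_congr rfl fun a _ => ?_
    rw [hxx a]
    rfl
  rw [h3, hT_coe, logHeight_fun_prod_eq hx0, Finset.sum_div]
  refine Finset.sum_congr rfl fun a _ => ?_
  rw [hxx a, hT_coe]

/-- The height of a pointwise product of tuples is at most the sum of their heights. -/
theorem hT_mul_le {ι : Type*} [Finite ι] (x y : ι → AlgebraicClosure ℚ) :
    hT (x * y) ≤ hT x + hT y := by
  obtain ⟨A, hA, x', y', hx', hy'⟩ := exists_lift₂_Qb x y
  obtain rfl : x = fun i => (x' i : AlgebraicClosure ℚ) := funext fun i => (hx' i).symm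
  obtain rfl : y = fun i => (y' i : AlgebraicClosure ℚ) := funext fun i => (hy' i).symm
  have h3 : ((fun i => (x' i : AlgebraicClosure ℚ)) * fun i => (y' i : AlgebraicClosure ℚ)) =
      fun i => (((x' * y') i : A) : AlgebraicClosure ℚ) := rfl
  rw [h3, hT_coe, hT_coe, hT_coe, ← add_div]
  exact div_le_div_of_nonneg_right (logHeight_mul_le x' y') (finrank_pos_Qb A).le

/-- The height of the point `(a : b)` of the projective line is the height of `a / b`. -/
theorem hT_pair (a : AlgebraicClosure ℚ) {b : AlgebraicClosure ℚ} (hb : b ≠ 0) :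
    hT ![a, b] = hQ (a / b) := by
  rw [hQ, ← hT_smul ![a / b, 1] hb]
  congr 1
  funext i
  fin_cases i
  · simp [mul_div_cancel₀ _ hb]
  · simp

/-- The height of `(a : 1)` is the height of `a` (this is the definition of `hQ`). -/
theorem hT_pair_one (a : AlgebraicClosure ℚ) : hT ![a, 1] = hQ a := rfl

/-- The height of the ratio of two coordinates of a tuple is at most the height of the tuple. -/
theorem hQ_div_le_hT {ι : Type*} [Finite ι] (x : ι → AlgebraicClosure ℚ) (i : ι) {j : ι}
    (hj : x j ≠ 0) : hQ (x i / x j) ≤ hT x := by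
  rw [← hT_pair (x i) hj]
  have h : (![x i, x j] : Fin 2 → AlgebraicClosure ℚ) = x ∘ ![i, j] := by
    funext k
    fin_cases k <;> simp
  rw [h]
  exact hT_comp_le _ x

/-- If a coordinate of a tuple is `1`, the height of every coordinate is at most the height of
the tuple. -/
theorem hQ_le_hT_of_eq_one {ι : Type*} [Finite ι] (x : ι → AlgebraicClosure ℚ) (i : ι) {j : ι}
    (hj : x j = 1) : hQ (x i) ≤ hT x := by
  have h := hQ_div_le_hT x i (j := j) (by rw [hj]; exact one_ne_zero)
  rwa [hj, div_one] at h

/-- A non-zero constant tuple has height zero. -/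
theorem hT_const {ι : Type*} [Finite ι] {c : AlgebraicClosure ℚ} (hc : c ≠ 0) :
    hT (fun _ : ι => c) = 0 := by
  have h1 : (fun _ : ι => c) = c • (1 : ι → AlgebraicClosure ℚ) := by
    funext i
    simp
  have h2 : (1 : ι → AlgebraicClosure ℚ) = fun i => (((1 : ι → ℚ) i : ℚ) : AlgebraicClosure ℚ) := by
    funext i
    simp
  have h3 := hT_eq (algebraMap ℚ (AlgebraicClosure ℚ)) (1 : ι → ℚ)
  rw [h1, hT_smul _ hc, h2]
  simp only [Pi.one_apply, Rat.cast_one] at h3 ⊢
  simpa using h3

/-- The all-ones tuple has height zero. -/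
theorem hT_one {ι : Type*} [Finite ι] : hT (1 : ι → AlgebraicClosure ℚ) = 0 :=
  hT_const (ι := ι) (one_ne_zero)

end Fermat.Agent.S17.H.Tuple
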