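/-
S17 / strand H / BLOCK A (Mathlib only), leaf A7: Gelfond's inequality for heights of products.

Part 1-2: for nonzero polynomials `P Q` over a number field `K`, the logarithmic height of the
coefficient tuple of `P * Q` differs from the sum of the heights of the coefficient tuples of
`P` and `Q` by at most `[K : ℚ] * (n * log 2 + log (n + 1))`, `n = natDegree (P * Q)`.
(Finite places: Gauss's lemma, exact. Infinite places: Mahler measure.)

Part 3-5: the same for polynomials in several variables (Kronecker substitution) and for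
products of finitely many factors.
-/
import Fermat.Agent.S17.H.AbsHeight.GaussMahlerNF

set_option autoImplicit false

namespace Fermat.Agent.S17.H.AbsHeight.GelfondNF

open Polynomial Height NumberField
open Fermat.Agent.S17.H.AbsHeight.GaussMahlerNF

variable {K : Type*} [Field K]

/-! ### One variable, local -/

lemma iSup_coeffTuple_nonneg (v : AbsoluteValue K ℝ) (P : K[X]) :
    0 ≤ ⨆ i, v (coeffTuple P i) :=
  Real.iSup_nonneg fun _ => v.nonneg _

lemma iSup_coeffTuple_pos (v : AbsoluteValue K ℝ) {P : K[X]} (hP : P ≠ 0) :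
    0 < ⨆ i, v (coeffTuple P i) := by
  have h : 0 < v (coeffTuple P ⟨P.natDegree, Nat.lt_succ_self _⟩) := by
    rw [coeffTuple_apply]
    exact v.pos (by simpa using hP)
  exact h.trans_le (Finite.le_ciSup_of_le (⟨P.natDegree, Nat.lt_succ_self _⟩ :
    Fin (P.natDegree + 1)) le_rfl)

/-- **Gauss's lemma**: at a nonarchimedean absolute value the sup of the coefficients is
multiplicative. -/
lemma iSup_coeffTuple_mul_of_isNonarchimedean (v : AbsoluteValue K ℝ) (hv : IsNonarchimedean v)
    (P Q : K[X]) :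
    ⨆ i, v (coeffTuple (P * Q) i) = (⨆ i, v (coeffTuple P i)) * ⨆ i, v (coeffTuple Q i) := by
  simp only [iSup_coeffTuple_eq_gaussNorm]
  exact gaussNorm_mul hv one_pos P Q

lemma iSup_coeffTuple_eq_supNorm (w : InfinitePlace K) (P : K[X]) :
    ⨆ i, w (coeffTuple P i) = (P.map w.embedding).supNorm := by
  apply le_antisymm
  · refine ciSup_le fun i => ?_
    have := (P.map w.embedding).le_supNorm i
    rwa [coeff_map, InfinitePlace.norm_embedding_eq] at this
  · obtain ⟨i, hi⟩ := (P.map w.embedding).exists_eq_supNorm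
    rw [hi, coeff_map, InfinitePlace.norm_embedding_eq]
    by_cases h : i < P.natDegree + 1
    · exact Finite.le_ciSup_of_le (⟨i, h⟩ : Fin (P.natDegree + 1)) le_rfl
    · have : P.coeff i = 0 := coeff_eq_zero_of_natDegree_lt (by omega)
      rw [this, map_zero]
      exact Real.iSup_nonneg fun j => apply_nonneg _ _

/-- `supNorm ≤ 2 ^ deg * mahlerMeasure` for complex polynomials. -/
lemma supNorm_le_two_pow_mul_mahlerMeasure (p : ℂ[X]) :
    p.supNorm ≤ 2 ^ p.natDegree * p.mahlerMeasure := by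
  refine (supNorm_le_choose_natDegree_div_two_mul_mahlerMeasure p).trans ?_
  gcongr
  · exact mahlerMeasure_nonneg _
  · exact_mod_cast Nat.choose_le_two_pow _ _

/-- Gelfond's inequality in one variable at an infinite place, upper half. -/
lemma iSup_coeffTuple_mul_le_of_infinitePlace (w : InfinitePlace K) {P Q : K[X]} (hP : P ≠ 0)
    (hQ : Q ≠ 0) :
    ⨆ i, w (coeffTuple (P * Q) i) ≤
      (2 ^ (P * Q).natDegree * ((P * Q).natDegree + 1)) *
        ((⨆ i, w (coeffTuple P i)) * ⨆ i, w (coeffTuple Q i)) := by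
  simp only [iSup_coeffTuple_eq_supNorm]
  set p := P.map w.embedding with hp
  set q := Q.map w.embedding with hq
  have hpq : (P * Q).map w.embedding = p * q := Polynomial.map_mul _
  rw [hpq]
  have hn : (P * Q).natDegree = (p * q).natDegree := by rw [← hpq, natDegree_map]
  have hdeg : (p * q).natDegree = p.natDegree + q.natDegree := by
    rw [hp, hq, natDegree_map, natDegree_map, ← natDegree_mul hP hQ, ← hn]
  rw [hn]
  have h1 := supNorm_le_two_pow_mul_mahlerMeasure (p * q)
  have h2 := mahlerMeasure_le_sqrt_natDegree_add_one_mul_supNorm p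
  have h3 := mahlerMeasure_le_sqrt_natDegree_add_one_mul_supNorm q
  have hs1 : √((p.natDegree : ℝ) + 1) ≤ √(((p * q).natDegree : ℝ) + 1) := by
    apply Real.sqrt_le_sqrt; rw [hdeg]; push_cast; linarith [(Nat.cast_nonneg q.natDegree : (0:ℝ) ≤ _)]
  have hs2 : √((q.natDegree : ℝ) + 1) ≤ √(((p * q).natDegree : ℝ) + 1) := by
    apply Real.sqrt_le_sqrt; rw [hdeg]; push_cast; linarith [(Nat.cast_nonneg p.natDegree : (0:ℝ) ≤ _)]
  have hsq : √(((p * q).natDegree : ℝ) + 1) * √(((p * q).natDegree : ℝ) + 1) =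
      ((p * q).natDegree : ℝ) + 1 := Real.mul_self_sqrt (by positivity)
  have hM : (p * q).mahlerMeasure ≤ (((p * q).natDegree : ℝ) + 1) * (p.supNorm * q.supNorm) := by
    rw [mahlerMeasure_mul]
    calc p.mahlerMeasure * q.mahlerMeasure
        ≤ (√((p.natDegree : ℝ) + 1) * p.supNorm) * (√((q.natDegree : ℝ) + 1) * q.supNorm) :=
          mul_le_mul h2 h3 (mahlerMeasure_nonneg _) (by positivity [p.supNorm_nonneg])
      _ ≤ (√(((p * q).natDegree : ℝ) + 1) * p.supNorm) *
            (√(((p * q).natDegree : ℝ) + 1) * q.supNorm) := by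
          have := p.supNorm_nonneg; have := q.supNorm_nonneg
          gcongr
      _ = (√(((p * q).natDegree : ℝ) + 1) * √(((p * q).natDegree : ℝ) + 1)) *
            (p.supNorm * q.supNorm) := by ring
      _ = (((p * q).natDegree : ℝ) + 1) * (p.supNorm * q.supNorm) := by rw [hsq]
  calc (p * q).supNorm ≤ 2 ^ (p * q).natDegree * (p * q).mahlerMeasure := h1
    _ ≤ 2 ^ (p * q).natDegree * ((((p * q).natDegree : ℝ) + 1) * (p.supNorm * q.supNorm)) := by
        gcongr
    _ = _ := by ring

/-- Gelfond's inequality in one variable at an infinite place, lower half. -/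
lemma iSup_coeffTuple_mul_ge_of_infinitePlace (w : InfinitePlace K) {P Q : K[X]} (hP : P ≠ 0)
    (hQ : Q ≠ 0) :
    (⨆ i, w (coeffTuple P i)) * (⨆ i, w (coeffTuple Q i)) ≤
      (2 ^ (P * Q).natDegree * ((P * Q).natDegree + 1)) * ⨆ i, w (coeffTuple (P * Q) i) := by
  simp only [iSup_coeffTuple_eq_supNorm]
  set p := P.map w.embedding with hp
  set q := Q.map w.embedding with hq
  have hpq : (P * Q).map w.embedding = p * q := Polynomial.map_mul _
  rw [hpq]
  have hn : (P * Q).natDegree = (p * q).natDegree := by rw [← hpq, natDegree_map]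
  have hdeg : (p * q).natDegree = p.natDegree + q.natDegree := by
    rw [hp, hq, natDegree_map, natDegree_map, ← natDegree_mul hP hQ, ← hn]
  rw [hn]
  have h1 := supNorm_le_two_pow_mul_mahlerMeasure p
  have h2 := supNorm_le_two_pow_mul_mahlerMeasure q
  have h3 := mahlerMeasure_le_sqrt_natDegree_add_one_mul_supNorm (p * q)
  have hsq : √(((p * q).natDegree : ℝ) + 1) ≤ ((p * q).natDegree : ℝ) + 1 := by
    have h1 : (1 : ℝ) ≤ ((p * q).natDegree : ℝ) + 1 := by
      linarith [(Nat.cast_nonneg (p * q).natDegree : (0:ℝ) ≤ _)]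
    calc √(((p * q).natDegree : ℝ) + 1) ≤ √(((p * q).natDegree : ℝ) + 1) * √(((p * q).natDegree : ℝ) + 1) :=
          le_mul_of_one_le_right (Real.sqrt_nonneg _) (Real.one_le_sqrt.mpr h1)
      _ = _ := Real.mul_self_sqrt (by positivity)
  calc p.supNorm * q.supNorm
      ≤ (2 ^ p.natDegree * p.mahlerMeasure) * (2 ^ q.natDegree * q.mahlerMeasure) :=
        mul_le_mul h1 h2 q.supNorm_nonneg (by positivity [p.mahlerMeasure_nonneg])
    _ = 2 ^ (p * q).natDegree * (p * q).mahlerMeasure := by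
        rw [mahlerMeasure_mul, hdeg, pow_add]; ring
    _ ≤ 2 ^ (p * q).natDegree * (√(((p * q).natDegree : ℝ) + 1) * (p * q).supNorm) := by gcongr
    _ ≤ 2 ^ (p * q).natDegree * ((((p * q).natDegree : ℝ) + 1) * (p * q).supNorm) := by
        have := (p * q).supNorm_nonneg
        gcongr
    _ = _ := by ring

/-! ### One variable, global -/

section global

variable [NumberField K]

/-- Finite multiplicative support of the local sup of a nonzero tuple. -/
lemma hasFiniteMulSupport_iSup {ι : Type*} [Finite ι] {x : ι → K} (hx : x ≠ 0) :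
    (fun v : FinitePlace K => ⨆ i, v (x i)).HasFiniteMulSupport := by
  have : Nonempty {j // x j ≠ 0} := nonempty_subtype.mpr <| Function.ne_iff.mp hx
  suffices (fun v : FinitePlace K ↦ ⨆ i : {j // x j ≠ 0}, v (x i)).HasFiniteMulSupport by
    convert this using 2 with v
    obtain ⟨i, hi⟩ : ∃ j, x j ≠ 0 := Function.ne_iff.mp hx
    have : Nonempty ι := .intro i
    refine le_antisymm (ciSup_le fun j ↦ ?_) (ciSup_le fun ⟨j, hj⟩ ↦ Finite.le_ciSup_of_le j le_rfl)
    rcases eq_or_ne (x j) 0 with h | h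
    · rw [h, map_zero]
      exact Real.iSup_nonneg fun _ => apply_nonneg _ _
    · exact Finite.le_ciSup_of_le (⟨j, h⟩ : {j // x j ≠ 0}) le_rfl
  exact Function.HasFiniteMulSupport.iSup fun i => FinitePlace.hasFiniteMulSupport i.2

/-- The Gelfond constant at the infinite places for degree `n`. -/
noncomputable def gelfondFactor (n : ℕ) : ℝ := 2 ^ n * ((n : ℝ) + 1)

lemma one_le_gelfondFactor (n : ℕ) : 1 ≤ gelfondFactor n := by
  unfold gelfondFactor
  have h1 : (1 : ℝ) ≤ 2 ^ n := one_le_pow₀ one_le_two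
  have h2 : (1 : ℝ) ≤ (n : ℝ) + 1 := by linarith [(Nat.cast_nonneg n : (0 : ℝ) ≤ n)]
  calc (1 : ℝ) = 1 * 1 := by ring
    _ ≤ 2 ^ n * ((n : ℝ) + 1) := mul_le_mul h1 h2 zero_le_one (by positivity)

lemma gelfondFactor_pos (n : ℕ) : 0 < gelfondFactor n :=
  zero_lt_one.trans_le (one_le_gelfondFactor n)

lemma finprod_iSup_coeffTuple_mul {P Q : K[X]} (hP : P ≠ 0) (hQ : Q ≠ 0) :
    (∏ᶠ v : FinitePlace K, ⨆ i, v (coeffTuple (P * Q) i)) =
      (∏ᶠ v : FinitePlace K, ⨆ i, v (coeffTuple P i)) *
        ∏ᶠ v : FinitePlace K, ⨆ i, v (coeffTuple Q i) := by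
  rw [← finprod_mul_distrib (hasFiniteMulSupport_iSup (coeffTuple_ne_zero hP))
    (hasFiniteMulSupport_iSup (coeffTuple_ne_zero hQ))]
  refine finprod_congr fun v => ?_
  exact iSup_coeffTuple_mul_of_isNonarchimedean v.val (FinitePlace.add_le v) P Q

/-- **Gelfond, upper half** (multiplicative form, one variable). -/
theorem mulHeight_coeffTuple_mul_le {P Q : K[X]} (hP : P ≠ 0) (hQ : Q ≠ 0) :
    mulHeight (coeffTuple (P * Q)) ≤
      gelfondFactor (P * Q).natDegree ^ Module.finrank ℚ K *
        (mulHeight (coeffTuple P) * mulHeight (coeffTuple Q)) := by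
  have hPQ : P * Q ≠ 0 := mul_ne_zero hP hQ
  rw [NumberField.mulHeight_eq (coeffTuple_ne_zero hPQ),
    NumberField.mulHeight_eq (coeffTuple_ne_zero hP),
    NumberField.mulHeight_eq (coeffTuple_ne_zero hQ), finprod_iSup_coeffTuple_mul hP hQ]
  have hinf : (∏ w : InfinitePlace K, (⨆ i, w (coeffTuple (P * Q) i)) ^ w.mult) ≤
      gelfondFactor (P * Q).natDegree ^ Module.finrank ℚ K *
        ((∏ w : InfinitePlace K, (⨆ i, w (coeffTuple P i)) ^ w.mult) *
          ∏ w : InfinitePlace K, (⨆ i, w (coeffTuple Q i)) ^ w.mult) := by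
    rw [← InfinitePlace.sum_mult_eq, ← Finset.prod_pow_eq_pow_sum, ← Finset.prod_mul_distrib,
      ← Finset.prod_mul_distrib]
    refine Finset.prod_le_prod (fun w _ => pow_nonneg (iSup_coeffTuple_nonneg w.val _) _)
      fun w _ => ?_
    rw [← mul_pow, ← mul_pow]
    exact pow_le_pow_left₀ (iSup_coeffTuple_nonneg w.val _)
      (iSup_coeffTuple_mul_le_of_infinitePlace w hP hQ) _
  have hFP : 0 ≤ ∏ᶠ v : FinitePlace K, ⨆ i, v (coeffTuple P i) :=
    finprod_nonneg fun v => iSup_coeffTuple_nonneg v.val _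
  have hFQ : 0 ≤ ∏ᶠ v : FinitePlace K, ⨆ i, v (coeffTuple Q i) :=
    finprod_nonneg fun v => iSup_coeffTuple_nonneg v.val _
  calc (∏ w : InfinitePlace K, (⨆ i, w (coeffTuple (P * Q) i)) ^ w.mult) *
        ((∏ᶠ v : FinitePlace K, ⨆ i, v (coeffTuple P i)) *
          ∏ᶠ v : FinitePlace K, ⨆ i, v (coeffTuple Q i))
      ≤ (gelfondFactor (P * Q).natDegree ^ Module.finrank ℚ K *
        ((∏ w : InfinitePlace K, (⨆ i, w (coeffTuple P i)) ^ w.mult) *
          ∏ w : InfinitePlace K, (⨆ i, w (coeffTuple Q i)) ^ w.mult)) *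
        ((∏ᶠ v : FinitePlace K, ⨆ i, v (coeffTuple P i)) *
          ∏ᶠ v : FinitePlace K, ⨆ i, v (coeffTuple Q i)) :=
        mul_le_mul_of_nonneg_right hinf (mul_nonneg hFP hFQ)
    _ = _ := by ring

/-- **Gelfond, lower half** (multiplicative form, one variable). -/
theorem mulHeight_coeffTuple_mul_ge {P Q : K[X]} (hP : P ≠ 0) (hQ : Q ≠ 0) :
    mulHeight (coeffTuple P) * mulHeight (coeffTuple Q) ≤
      gelfondFactor (P * Q).natDegree ^ Module.finrank ℚ K * mulHeight (coeffTuple (P * Q)) := by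
  have hPQ : P * Q ≠ 0 := mul_ne_zero hP hQ
  rw [NumberField.mulHeight_eq (coeffTuple_ne_zero hPQ),
    NumberField.mulHeight_eq (coeffTuple_ne_zero hP),
    NumberField.mulHeight_eq (coeffTuple_ne_zero hQ), finprod_iSup_coeffTuple_mul hP hQ]
  have hinf : ((∏ w : InfinitePlace K, (⨆ i, w (coeffTuple P i)) ^ w.mult) *
          ∏ w : InfinitePlace K, (⨆ i, w (coeffTuple Q i)) ^ w.mult) ≤
      gelfondFactor (P * Q).natDegree ^ Module.finrank ℚ K *
        (∏ w : InfinitePlace K, (⨆ i, w (coeffTuple (P * Q) i)) ^ w.mult) := by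
    rw [← InfinitePlace.sum_mult_eq, ← Finset.prod_pow_eq_pow_sum, ← Finset.prod_mul_distrib,
      ← Finset.prod_mul_distrib]
    refine Finset.prod_le_prod (fun w _ => mul_nonneg
      (pow_nonneg (iSup_coeffTuple_nonneg w.val _) _)
      (pow_nonneg (iSup_coeffTuple_nonneg w.val _) _)) fun w _ => ?_
    rw [← mul_pow, ← mul_pow]
    exact pow_le_pow_left₀ (mul_nonneg (iSup_coeffTuple_nonneg w.val _)
      (iSup_coeffTuple_nonneg w.val _)) (iSup_coeffTuple_mul_ge_of_infinitePlace w hP hQ) _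
  have hFP : 0 ≤ ∏ᶠ v : FinitePlace K, ⨆ i, v (coeffTuple P i) :=
    finprod_nonneg fun v => iSup_coeffTuple_nonneg v.val _
  have hFQ : 0 ≤ ∏ᶠ v : FinitePlace K, ⨆ i, v (coeffTuple Q i) :=
    finprod_nonneg fun v => iSup_coeffTuple_nonneg v.val _
  calc ((∏ w : InfinitePlace K, (⨆ i, w (coeffTuple P i)) ^ w.mult) *
          ∏ᶠ v : FinitePlace K, ⨆ i, v (coeffTuple P i)) *
        ((∏ w : InfinitePlace K, (⨆ i, w (coeffTuple Q i)) ^ w.mult) *
          ∏ᶠ v : FinitePlace K, ⨆ i, v (coeffTuple Q i))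
      = ((∏ w : InfinitePlace K, (⨆ i, w (coeffTuple P i)) ^ w.mult) *
          ∏ w : InfinitePlace K, (⨆ i, w (coeffTuple Q i)) ^ w.mult) *
        ((∏ᶠ v : FinitePlace K, ⨆ i, v (coeffTuple P i)) *
          ∏ᶠ v : FinitePlace K, ⨆ i, v (coeffTuple Q i)) := by ring
    _ ≤ (gelfondFactor (P * Q).natDegree ^ Module.finrank ℚ K *
        (∏ w : InfinitePlace K, (⨆ i, w (coeffTuple (P * Q) i)) ^ w.mult)) *
        ((∏ᶠ v : FinitePlace K, ⨆ i, v (coeffTuple P i)) *
          ∏ᶠ v : FinitePlace K, ⨆ i, v (coeffTuple Q i)) :=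
        mul_le_mul_of_nonneg_right hinf (mul_nonneg hFP hFQ)
    _ = _ := by ring

/-- The logarithmic Gelfond constant for degree `n`. -/
noncomputable def gelfondConst (n : ℕ) : ℝ := n * Real.log 2 + Real.log ((n : ℝ) + 1)

lemma log_gelfondFactor (n : ℕ) : Real.log (gelfondFactor n) = gelfondConst n := by
  unfold gelfondFactor gelfondConst
  rw [Real.log_mul (by positivity) (by positivity), Real.log_pow]

lemma gelfondConst_nonneg (n : ℕ) : 0 ≤ gelfondConst n := by
  rw [← log_gelfondFactor]; exact Real.log_nonneg (one_le_gelfondFactor n)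

lemma gelfondConst_mono {m n : ℕ} (h : m ≤ n) : gelfondConst m ≤ gelfondConst n := by
  unfold gelfondConst
  have h1 : (m : ℝ) ≤ n := Nat.cast_le.mpr h
  have h2 : Real.log ((m : ℝ) + 1) ≤ Real.log ((n : ℝ) + 1) :=
    Real.log_le_log (by positivity) (by linarith)
  have h3 : (m : ℝ) * Real.log 2 ≤ n * Real.log 2 :=
    mul_le_mul_of_nonneg_right h1 (Real.log_nonneg one_le_two)
  linarith

/-- **Gelfond's inequality for heights, one variable**: the height of the coefficient tuple of
a product is the sum of the heights of the coefficient tuples of the factors, up to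
`[K : ℚ] * (n * log 2 + log (n + 1))`, `n` the degree of the product. -/
theorem abs_logHeight_coeffTuple_mul_le {P Q : K[X]} (hP : P ≠ 0) (hQ : Q ≠ 0) :
    |logHeight (coeffTuple (P * Q)) - (logHeight (coeffTuple P) + logHeight (coeffTuple Q))| ≤
      Module.finrank ℚ K * gelfondConst (P * Q).natDegree := by
  have h1 := Real.log_le_log (mulHeight_pos _) (mulHeight_coeffTuple_mul_le hP hQ)
  have h2 := Real.log_le_log (mul_pos (mulHeight_pos _) (mulHeight_pos _))
    (mulHeight_coeffTuple_mul_ge hP hQ)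
  have hg := gelfondFactor_pos (P * Q).natDegree
  rw [Real.log_mul (by positivity) (by positivity), Real.log_pow, log_gelfondFactor,
    Real.log_mul (mulHeight_pos _).ne' (mulHeight_pos _).ne'] at h1
  rw [Real.log_mul (mulHeight_pos _).ne' (mulHeight_pos _).ne',
    Real.log_mul (by positivity) (mulHeight_pos _).ne', Real.log_pow, log_gelfondFactor] at h2
  simp only [logHeight_eq_log_mulHeight]
  rw [abs_le]
  constructor <;> linarith

end global

/-! ### Several variables: Kronecker substitution -/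

section kronecker

variable {σ : Type*}

/-- The coefficient tuple of a polynomial in several variables, indexed by its support. -/
noncomputable def mvCoeffTuple (f : MvPolynomial σ K) : f.support → K := fun m => f.coeff m

lemma mvCoeffTuple_apply (f : MvPolynomial σ K) (m : f.support) :
    mvCoeffTuple f m = f.coeff m := rfl

lemma mvCoeffTuple_ne_zero {f : MvPolynomial σ K} (hf : f ≠ 0) : mvCoeffTuple f ≠ 0 := by
  obtain ⟨m, hm⟩ := MvPolynomial.ne_zero_iff.mp hf
  intro h
  have h1 := congrFun h ⟨m, MvPolynomial.mem_support_iff.mpr hm⟩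
  exact hm h1

lemma abv_coeff_le_iSup (v : AbsoluteValue K ℝ) (P : K[X]) (n : ℕ) :
    v (P.coeff n) ≤ ⨆ i, v (coeffTuple P i) := by
  rw [iSup_coeffTuple_eq_gaussNorm]
  simpa using le_gaussNorm v P (c := 1) zero_le_one n

variable [Fintype σ]

/-- The Kronecker weight of an exponent vector. -/
def kwt (ω : σ → ℕ) (m : σ →₀ ℕ) : ℕ := ∑ s, m s * ω s

/-- Kronecker substitution `X_s ↦ T ^ ω s`. -/
noncomputable def kron (ω : σ → ℕ) : MvPolynomial σ K →ₐ[K] K[X] :=
  MvPolynomial.aeval fun s => (X : K[X]) ^ ω s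

lemma kron_monomial (ω : σ → ℕ) (m : σ →₀ ℕ) (a : K) :
    kron ω (MvPolynomial.monomial m a) = Polynomial.monomial (kwt ω m) a := by
  rw [kron, MvPolynomial.aeval_monomial, Finsupp.prod_fintype _ _ (fun i => by simp)]
  simp only [← pow_mul]
  rw [Finset.prod_pow_eq_pow_sum, ← C_mul_X_pow_eq_monomial, Polynomial.algebraMap_eq]
  congr 2
  exact Finset.sum_congr rfl fun s _ => mul_comm _ _

lemma kron_eq_sum (ω : σ → ℕ) (f : MvPolynomial σ K) :
    kron ω f = ∑ m ∈ f.support, Polynomial.monomial (kwt ω m) (f.coeff m) := by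
  conv_lhs => rw [← f.support_sum_monomial_coeff]
  rw [map_sum]
  exact Finset.sum_congr rfl fun m _ => kron_monomial ω m _

lemma coeff_kron_of_mem (ω : σ → ℕ) (f : MvPolynomial σ K)
    (hinj : Set.InjOn (kwt ω) (f.support : Set (σ →₀ ℕ))) {m : σ →₀ ℕ} (hm : m ∈ f.support) :
    (kron ω f).coeff (kwt ω m) = f.coeff m := by
  rw [kron_eq_sum, finsetSum_coeff, Finset.sum_eq_single_of_mem m hm]
  · simp
  · intro m' hm' hne
    rw [coeff_monomial, if_neg]
    exact fun h => hne (hinj hm' hm h)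

lemma coeff_kron_eq_zero (ω : σ → ℕ) (f : MvPolynomial σ K) {n : ℕ}
    (hn : ∀ m ∈ f.support, kwt ω m ≠ n) : (kron ω f).coeff n = 0 := by
  rw [kron_eq_sum, finsetSum_coeff]
  refine Finset.sum_eq_zero fun m hm => ?_
  rw [coeff_monomial, if_neg (hn m hm)]

lemma kron_ne_zero (ω : σ → ℕ) {f : MvPolynomial σ K} (hf : f ≠ 0)
    (hinj : Set.InjOn (kwt ω) (f.support : Set (σ →₀ ℕ))) : kron ω f ≠ 0 := by
  obtain ⟨m, hm⟩ := MvPolynomial.ne_zero_iff.mp hf
  intro h
  have h1 := coeff_kron_of_mem ω f hinj (MvPolynomial.mem_support_iff.mpr hm)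
  rw [h, coeff_zero] at h1
  exact hm h1.symm

/-- Kronecker substitution does not change the local sup of the coefficients. -/
lemma iSup_coeffTuple_kron (v : AbsoluteValue K ℝ) (ω : σ → ℕ) (f : MvPolynomial σ K)
    (hinj : Set.InjOn (kwt ω) (f.support : Set (σ →₀ ℕ))) :
    ⨆ i, v (coeffTuple (kron ω f) i) = ⨆ m : f.support, v (mvCoeffTuple f m) := by
  apply le_antisymm
  · refine ciSup_le fun i => ?_
    rw [coeffTuple_apply]
    by_cases h : ∃ m ∈ f.support, kwt ω m = (i : ℕ)
    · obtain ⟨m, hm, hmi⟩ := h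
      rw [← hmi, coeff_kron_of_mem ω f hinj hm]
      exact Finite.le_ciSup_of_le (⟨m, hm⟩ : f.support) le_rfl
    · push Not at h
      rw [coeff_kron_eq_zero ω f h, map_zero]
      exact Real.iSup_nonneg fun _ => v.nonneg _
  · refine Real.iSup_le (fun m => ?_) (iSup_coeffTuple_nonneg v _)
    rw [mvCoeffTuple_apply, ← coeff_kron_of_mem ω f hinj m.2]
    exact abv_coeff_le_iSup v _ _

/-- Kronecker substitution does not change the height of the coefficient tuple. -/
theorem mulHeight_coeffTuple_kron [NumberField K] (ω : σ → ℕ) {f : MvPolynomial σ K} (hf : f ≠ 0)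
    (hinj : Set.InjOn (kwt ω) (f.support : Set (σ →₀ ℕ))) :
    mulHeight (coeffTuple (kron ω f)) = mulHeight (mvCoeffTuple f) := by
  rw [NumberField.mulHeight_eq (coeffTuple_ne_zero (kron_ne_zero ω hf hinj)),
    NumberField.mulHeight_eq (mvCoeffTuple_ne_zero hf)]
  congr 1
  · refine Finset.prod_congr rfl fun w _ => ?_
    congr 1
    exact iSup_coeffTuple_kron w.val ω f hinj
  · exact finprod_congr fun v => iSup_coeffTuple_kron v.val ω f hinj

/-! #### Base-`B` digits -/

lemma digits_injective (B : ℕ) : ∀ (r : ℕ) (a b : Fin r → ℕ), (∀ j, a j < B) → (∀ j, b j < B) →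
    ∑ j, a j * B ^ (j : ℕ) = ∑ j, b j * B ^ (j : ℕ) → a = b
  | 0, a, b, _, _, _ => by ext j; exact j.elim0
  | r + 1, a, b, ha, hb, h => by
    rw [Fin.sum_univ_succ, Fin.sum_univ_succ] at h
    simp only [Fin.val_zero, pow_zero, mul_one, Fin.val_succ, pow_succ] at h
    have hB : 0 < B := lt_of_le_of_lt (Nat.zero_le _) (ha 0)
    have ha' : ∑ j : Fin r, a j.succ * (B ^ (j : ℕ) * B) =
        B * ∑ j : Fin r, a j.succ * B ^ (j : ℕ) := by
      rw [Finset.mul_sum]; exact Finset.sum_congr rfl fun j _ => by ring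
    have hb' : ∑ j : Fin r, b j.succ * (B ^ (j : ℕ) * B) =
        B * ∑ j : Fin r, b j.succ * B ^ (j : ℕ) := by
      rw [Finset.mul_sum]; exact Finset.sum_congr rfl fun j _ => by ring
    rw [ha', hb'] at h
    have h0 : a 0 = b 0 := by
      have h' := congrArg (· % B) h
      simpa [Nat.add_mul_mod_self_left, Nat.mod_eq_of_lt (ha 0), Nat.mod_eq_of_lt (hb 0)] using h'
    have htail : ∑ j : Fin r, a j.succ * B ^ (j : ℕ) = ∑ j : Fin r, b j.succ * B ^ (j : ℕ) := by
      rw [h0] at h
      exact Nat.eq_of_mul_eq_mul_left hB (Nat.add_left_cancel h)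
    have ih := digits_injective B r (fun j => a j.succ) (fun j => b j.succ) (fun j => ha _)
      (fun j => hb _) htail
    ext j
    exact Fin.cases h0 (fun j => congrFun ih j) j

lemma digits_lt (B : ℕ) : ∀ (r : ℕ) (a : Fin r → ℕ), (∀ j, a j < B) →
    ∑ j, a j * B ^ (j : ℕ) < B ^ r
  | 0, a, _ => by simp
  | r + 1, a, ha => by
    rw [Fin.sum_univ_castSucc]
    simp only [Fin.val_castSucc, Fin.val_last]
    have ih := digits_lt B r (fun j => a j.castSucc) (fun j => ha _)
    have h1 : a (Fin.last r) * B ^ r ≤ (B - 1) * B ^ r :=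
      Nat.mul_le_mul_right _ (Nat.le_pred_of_lt (ha _))
    have hB : 0 < B := lt_of_le_of_lt (Nat.zero_le _) (ha 0)
    calc ∑ j : Fin r, a j.castSucc * B ^ (j : ℕ) + a (Fin.last r) * B ^ r
        < B ^ r + (B - 1) * B ^ r := Nat.add_lt_add_of_lt_of_le ih h1
      _ = (B - 1 + 1) * B ^ r := by ring
      _ = B ^ (r + 1) := by rw [Nat.sub_add_cancel hB, pow_succ, mul_comm]

/-- The Kronecker weights `ω s = (D + 1) ^ (index of s)`. -/
noncomputable def kronWeight (D : ℕ) (s : σ) : ℕ := (D + 1) ^ (Fintype.equivFin σ s : ℕ)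

lemma kwt_kronWeight (D : ℕ) (m : σ →₀ ℕ) :
    kwt (kronWeight D) m =
      ∑ j : Fin (Fintype.card σ), m ((Fintype.equivFin σ).symm j) * (D + 1) ^ (j : ℕ) := by
  unfold kwt kronWeight
  rw [← Equiv.sum_comp (Fintype.equivFin σ)]
  simp

lemma kwt_kronWeight_injOn (D : ℕ) :
    Set.InjOn (kwt (kronWeight (σ := σ) D)) {m : σ →₀ ℕ | ∀ s, m s ≤ D} := by
  intro m hm m' hm' h
  rw [kwt_kronWeight, kwt_kronWeight] at h
  have := digits_injective (D + 1) _ _ _ (fun j => Nat.lt_succ_of_le (hm _))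
    (fun j => Nat.lt_succ_of_le (hm' _)) h
  ext s
  simpa using congrFun this (Fintype.equivFin σ s)

lemma kwt_kronWeight_lt (D : ℕ) {m : σ →₀ ℕ} (hm : ∀ s, m s ≤ D) :
    kwt (kronWeight D) m < (D + 1) ^ Fintype.card σ := by
  rw [kwt_kronWeight]
  exact digits_lt (D + 1) _ _ fun j => Nat.lt_succ_of_le (hm _)

lemma le_totalDegree_of_mem_support {f : MvPolynomial σ K} {m : σ →₀ ℕ} (hm : m ∈ f.support)
    (s : σ) : m s ≤ f.totalDegree := by
  refine le_trans ?_ (MvPolynomial.le_totalDegree hm)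
  rw [Finsupp.sum_fintype _ _ (fun _ => rfl)]
  exact Finset.single_le_sum (fun _ _ => Nat.zero_le _) (Finset.mem_univ s)

lemma support_subset_box {f : MvPolynomial σ K} {D : ℕ} (hD : f.totalDegree ≤ D) :
    (f.support : Set (σ →₀ ℕ)) ⊆ {m : σ →₀ ℕ | ∀ s, m s ≤ D} :=
  fun _ hm s => (le_totalDegree_of_mem_support hm s).trans hD

lemma kwt_injOn_support {f : MvPolynomial σ K} {D : ℕ} (hD : f.totalDegree ≤ D) :
    Set.InjOn (kwt (kronWeight (σ := σ) D)) (f.support : Set (σ →₀ ℕ)) :=
  (kwt_kronWeight_injOn D).mono (support_subset_box hD)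

lemma natDegree_kron_le {f : MvPolynomial σ K} {D : ℕ} (hD : f.totalDegree ≤ D) :
    (kron (kronWeight D) f).natDegree ≤ (D + 1) ^ Fintype.card σ := by
  rw [natDegree_le_iff_coeff_eq_zero]
  intro n hn
  refine coeff_kron_eq_zero _ f fun m hm h => ?_
  have := kwt_kronWeight_lt D (support_subset_box hD hm)
  omega

/-- **Gelfond's inequality for heights, several variables** (two factors). -/
theorem abs_logHeight_mvCoeffTuple_mul_le [NumberField K] {f g : MvPolynomial σ K} (hf : f ≠ 0)
    (hg : g ≠ 0) {D : ℕ} (hD : f.totalDegree + g.totalDegree ≤ D) :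
    |logHeight (mvCoeffTuple (f * g)) - (logHeight (mvCoeffTuple f) + logHeight (mvCoeffTuple g))|
      ≤ Module.finrank ℚ K * gelfondConst ((D + 1) ^ Fintype.card σ) := by
  have hfD : f.totalDegree ≤ D := le_trans (Nat.le_add_right _ _) hD
  have hgD : g.totalDegree ≤ D := le_trans (Nat.le_add_left _ _) hD
  have hfgD : (f * g).totalDegree ≤ D := (MvPolynomial.totalDegree_mul f g).trans hD
  have hfg : f * g ≠ 0 := mul_ne_zero hf hg
  have h1 := mulHeight_coeffTuple_kron (kronWeight D) hf (kwt_injOn_support hfD)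
  have h2 := mulHeight_coeffTuple_kron (kronWeight D) hg (kwt_injOn_support hgD)
  have h3 := mulHeight_coeffTuple_kron (kronWeight D) hfg (kwt_injOn_support hfgD)
  have key := abs_logHeight_coeffTuple_mul_le (kron_ne_zero (kronWeight D) hf (kwt_injOn_support hfD))
    (kron_ne_zero (kronWeight D) hg (kwt_injOn_support hgD))
  rw [← map_mul] at key
  simp only [logHeight_eq_log_mulHeight] at key ⊢
  rw [h1, h2, h3] at key
  refine key.trans ?_
  exact mul_le_mul_of_nonneg_left (gelfondConst_mono (natDegree_kron_le hfgD)) (Nat.cast_nonneg _)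

/-- **Gelfond's inequality for heights, several variables** (finite products). -/
theorem abs_logHeight_mvCoeffTuple_multiset_prod_le [NumberField K]
    (S : Multiset (MvPolynomial σ K)) (hS : ∀ f ∈ S, f ≠ 0) {D : ℕ}
    (hD : (S.map MvPolynomial.totalDegree).sum ≤ D) :
    |logHeight (mvCoeffTuple S.prod) - (S.map fun f => logHeight (mvCoeffTuple f)).sum| ≤
      S.card * (Module.finrank ℚ K * gelfondConst ((D + 1) ^ Fintype.card σ)) := by
  induction S using Multiset.induction with
  | empty =>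
    simp only [Multiset.prod_zero, Multiset.map_zero, Multiset.sum_zero, sub_zero,
      Multiset.card_zero, Nat.cast_zero, zero_mul]
    have : mvCoeffTuple (1 : MvPolynomial σ K) = 1 := by
      classical
      funext m
      have hm := m.2
      rw [MvPolynomial.mem_support_iff, MvPolynomial.coeff_one] at hm
      rw [mvCoeffTuple_apply, MvPolynomial.coeff_one]
      by_cases h0 : (0 : σ →₀ ℕ) = m.1
      · simp [h0]
      · simp [h0] at hm
    rw [this, logHeight_one, abs_zero]
  | cons f S ih =>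
    have hf : f ≠ 0 := hS f (Multiset.mem_cons_self _ _)
    have hS' : ∀ g ∈ S, g ≠ 0 := fun g hg => hS g (Multiset.mem_cons_of_mem hg)
    have hP : S.prod ≠ 0 := Multiset.prod_ne_zero fun h => hS' 0 h rfl
    rw [Multiset.map_cons, Multiset.sum_cons] at hD
    have hD' : (S.map MvPolynomial.totalDegree).sum ≤ D := le_trans (Nat.le_add_left _ _) hD
    have hdeg : f.totalDegree + S.prod.totalDegree ≤ D :=
      le_trans (Nat.add_le_add_left (MvPolynomial.totalDegree_multiset_prod S) _) hD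
    have h1 := abs_logHeight_mvCoeffTuple_mul_le hf hP hdeg
    have h2 := ih hS' hD'
    rw [Multiset.prod_cons, Multiset.map_cons, Multiset.sum_cons, Multiset.card_cons]
    rw [abs_le] at h1 h2 ⊢
    push_cast
    constructor <;> nlinarith [h1.1, h1.2, h2.1, h2.2]

end kronecker

end Fermat.Agent.S17.H.AbsHeight.GelfondNF
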