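/-
S17 / strand H / BLOCK A, leaf A7 over the algebraic closure of ℚ:
Gelfond's inequality for polynomials in several variables with algebraic coefficients,
for the absolute logarithmic height `hT` of the coefficient tuples.  The constant is absolute:

  `|hT(f * g) - (hT(f) + hT(g))| ≤ gelfondConst ((D + 1) ^ card σ)`
  whenever `totalDegree f + totalDegree g ≤ D`,

and the same for finite products (`Multiset.prod` and `Finset.prod` forms).

Transport of `GelfondNF.abs_logHeight_mvCoeffTuple_mul_le` (number fields) through `hT_coe`: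
the finitely many coefficients lie in a number field, and the number-field constant is linear in
the degree of the field.
-/
import Mathlib
import Fermat.Agent.S17.H.A.Abs
import Fermat.Agent.S17.H.AbsHeight.GelfondNF

set_option autoImplicit false

namespace Fermat.Agent.S17.H.AbsHeight.Gelfond

open Height
open Fermat.Agent.S17.H
open Fermat.Agent.S17.H.AbsHeight.GelfondNF

variable {σ : Type*}

/-- A polynomial whose coefficients lie in an intermediate field comes from that field. -/
lemma exists_map_eq (A : IntermediateField ℚ (AlgebraicClosure ℚ))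
    (f : MvPolynomial σ (AlgebraicClosure ℚ)) (hA : ∀ s, f.coeff s ∈ A) :
    ∃ f₀ : MvPolynomial σ A, MvPolynomial.map (algebraMap A (AlgebraicClosure ℚ)) f₀ = f := by
  refine ⟨∑ s ∈ f.support, MvPolynomial.monomial s (⟨f.coeff s, hA s⟩ : A), ?_⟩
  rw [map_sum]
  conv_rhs => rw [MvPolynomial.as_sum f]
  refine Finset.sum_congr rfl fun s _ => ?_
  rw [MvPolynomial.map_monomial]
  rfl

/-- The total degree does not change under an injective change of coefficients. -/
lemma totalDegree_map_algebraMap (A : IntermediateField ℚ (AlgebraicClosure ℚ))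
    (p : MvPolynomial σ A) :
    (MvPolynomial.map (algebraMap A (AlgebraicClosure ℚ)) p).totalDegree = p.totalDegree := by
  unfold MvPolynomial.totalDegree
  rw [MvPolynomial.support_map_of_injective p (algebraMap A (AlgebraicClosure ℚ)).injective]

/-- The absolute height of the coefficient tuple, computed in a number field containing the
coefficients. -/
lemma hT_mvCoeffTuple_map (A : IntermediateField ℚ (AlgebraicClosure ℚ)) [NumberField A]
    (p : MvPolynomial σ A) :
    hT (mvCoeffTuple (MvPolynomial.map (algebraMap A (AlgebraicClosure ℚ)) p)) =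
      logHeight (mvCoeffTuple p) / (Module.finrank ℚ A : ℝ) := by
  have hsupp := MvPolynomial.support_map_of_injective p
    (algebraMap A (AlgebraicClosure ℚ)).injective
  let e : (MvPolynomial.map (algebraMap A (AlgebraicClosure ℚ)) p).support ≃ p.support :=
    Equiv.subtypeEquivRight fun s => by rw [hsupp]
  have h1 : mvCoeffTuple (MvPolynomial.map (algebraMap A (AlgebraicClosure ℚ)) p) =
      (fun i : p.support => ((mvCoeffTuple p i : A) : AlgebraicClosure ℚ)) ∘ e := by
    funext s
    show (MvPolynomial.map (algebraMap A (AlgebraicClosure ℚ)) p).coeff s.1 = _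
    rw [MvPolynomial.coeff_map]
    rfl
  rw [h1, hT_comp_equiv, hT_coe]

/-- The absolute height of a tuple indexed by a subsingleton is zero. -/
lemma hT_eq_zero_of_subsingleton {ι : Type*} [Finite ι] [Subsingleton ι]
    (x : ι → AlgebraicClosure ℚ) : hT x = 0 := by
  obtain ⟨A, hA, x', hx⟩ := exists_lift_Qb x
  have h1 : x = fun i => (x' i : AlgebraicClosure ℚ) := funext fun i => (hx i).symm
  rw [h1, hT_coe, logHeight_eq_zero_of_subsingleton, zero_div]

section gelfond

variable [Fintype σ]

/-- **Gelfond's inequality in several variables** over the algebraic closure of `ℚ`, for the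
absolute logarithmic height of the coefficient tuples (two factors). -/
theorem abs_hT_mvCoeffTuple_mul_le {f g : MvPolynomial σ (AlgebraicClosure ℚ)} (hf : f ≠ 0)
    (hg : g ≠ 0) {D : ℕ} (hD : f.totalDegree + g.totalDegree ≤ D) :
    |hT (mvCoeffTuple (f * g)) - (hT (mvCoeffTuple f) + hT (mvCoeffTuple g))| ≤
      gelfondConst ((D + 1) ^ Fintype.card σ) := by
  obtain ⟨A, hA, x', y', hx, hy⟩ := exists_lift₂_Qb (mvCoeffTuple f) (mvCoeffTuple g)
  have hfA : ∀ s, f.coeff s ∈ A := fun s => by
    by_cases hs : s ∈ f.support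
    · have h := hx ⟨s, hs⟩
      rw [mvCoeffTuple_apply] at h
      rw [← h]
      exact (x' ⟨s, hs⟩).2
    · have h0 : f.coeff s = 0 := by
        by_contra h
        exact hs (MvPolynomial.mem_support_iff.mpr h)
      rw [h0]
      exact A.zero_mem
  have hgA : ∀ s, g.coeff s ∈ A := fun s => by
    by_cases hs : s ∈ g.support
    · have h := hy ⟨s, hs⟩
      rw [mvCoeffTuple_apply] at h
      rw [← h]
      exact (y' ⟨s, hs⟩).2
    · have h0 : g.coeff s = 0 := by
        by_contra h
        exact hs (MvPolynomial.mem_support_iff.mpr h)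
      rw [h0]
      exact A.zero_mem
  obtain ⟨f₀, rfl⟩ := exists_map_eq A f hfA
  obtain ⟨g₀, rfl⟩ := exists_map_eq A g hgA
  have hf₀ : f₀ ≠ 0 := fun h => hf (by rw [h, map_zero])
  have hg₀ : g₀ ≠ 0 := fun h => hg (by rw [h, map_zero])
  rw [totalDegree_map_algebraMap, totalDegree_map_algebraMap] at hD
  have key := abs_logHeight_mvCoeffTuple_mul_le (K := A) hf₀ hg₀ hD
  have hpos : (0 : ℝ) < (Module.finrank ℚ A : ℝ) := Nat.cast_pos.mpr Module.finrank_pos
  rw [← map_mul, hT_mvCoeffTuple_map, hT_mvCoeffTuple_map, hT_mvCoeffTuple_map, ← add_div,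
    ← sub_div, abs_div, abs_of_pos hpos, div_le_iff₀ hpos]
  linarith

/-- **Gelfond's inequality for a product of several polynomials** over the algebraic closure of
`ℚ` (`Multiset.prod` form). -/
theorem abs_hT_mvCoeffTuple_multiset_prod_le (S : Multiset (MvPolynomial σ (AlgebraicClosure ℚ)))
    (hS : ∀ f ∈ S, f ≠ 0) {D : ℕ} (hD : (S.map MvPolynomial.totalDegree).sum ≤ D) :
    |hT (mvCoeffTuple S.prod) - (S.map fun f => hT (mvCoeffTuple f)).sum| ≤
      S.card * gelfondConst ((D + 1) ^ Fintype.card σ) := by
  induction S using Multiset.induction with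
  | empty =>
    have hsub : Subsingleton ((1 : MvPolynomial σ (AlgebraicClosure ℚ)).support) := by
      rw [MvPolynomial.support_one]
      infer_instance
    simp only [Multiset.prod_zero, Multiset.map_zero, Multiset.sum_zero, sub_zero,
      Multiset.card_zero, Nat.cast_zero, zero_mul]
    rw [hT_eq_zero_of_subsingleton, abs_zero]
  | cons f S ih =>
    have hf : f ≠ 0 := hS f (Multiset.mem_cons_self _ _)
    have hS' : ∀ g ∈ S, g ≠ 0 := fun g hg => hS g (Multiset.mem_cons_of_mem hg)
    have hP : S.prod ≠ 0 := Multiset.prod_ne_zero fun h => hS' 0 h rfl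
    rw [Multiset.map_cons, Multiset.sum_cons] at hD
    have hD' : (S.map MvPolynomial.totalDegree).sum ≤ D := le_trans (Nat.le_add_left _ _) hD
    have hdeg : f.totalDegree + S.prod.totalDegree ≤ D :=
      le_trans (Nat.add_le_add_left (MvPolynomial.totalDegree_multiset_prod S) _) hD
    have h1 := abs_hT_mvCoeffTuple_mul_le hf hP hdeg
    have h2 := ih hS' hD'
    rw [Multiset.prod_cons, Multiset.map_cons, Multiset.sum_cons, Multiset.card_cons]
    rw [abs_le] at h1 h2 ⊢
    push_cast
    constructor <;> nlinarith [h1.1, h1.2, h2.1, h2.2]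

/-- **Gelfond's inequality for a product of several polynomials** over the algebraic closure of
`ℚ` (`Finset.prod` form). -/
theorem abs_hT_mvCoeffTuple_finset_prod_le {ι : Type*} (S : Finset ι)
    (F : ι → MvPolynomial σ (AlgebraicClosure ℚ)) (hF : ∀ i ∈ S, F i ≠ 0) {D : ℕ}
    (hD : ∑ i ∈ S, (F i).totalDegree ≤ D) :
    |hT (mvCoeffTuple (∏ i ∈ S, F i)) - ∑ i ∈ S, hT (mvCoeffTuple (F i))| ≤
      S.card * gelfondConst ((D + 1) ^ Fintype.card σ) := by
  have h := abs_hT_mvCoeffTuple_multiset_prod_le (S.val.map F)
    (fun f hf => by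
      obtain ⟨i, hi, rfl⟩ := Multiset.mem_map.mp hf
      exact hF i hi)
    (D := D) (by rw [Multiset.map_map]; exact hD)
  rw [Multiset.map_map, Multiset.card_map] at h
  exact h

end gelfond

end Fermat.Agent.S17.H.AbsHeight.Gelfond
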