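import Fermat.Agent.S17.H.AbsHeight.GaussMahler

/-!
# Program MW, strand H, block A: Northcott's theorem for algebraic numbers of bounded degree

`finite_setOf_natDegree_minpoly_le_and_hQ_le`: for every `d` and `B` there are only finitely many
algebraic numbers of degree `≤ d` over ℚ and absolute logarithmic height `hQ ≤ B`.

Proof: the conjugates of `x` have the same height (`hQ_eq_of_aeval_minpoly_eq_zero`, Galois
invariance), so by Gauss–Mahler (`hT_coeffVec_le_sum_hQ_roots`) the coefficient vector of the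
minimal polynomial of `x` over ℚ has height `≤ d · max B 0 + d log 2`; the polynomial is monic,
so each of its coefficients has height bounded by the same quantity, and Northcott over ℚ
(Mathlib) leaves finitely many polynomials, each with finitely many roots.
-/

set_option autoImplicit false

namespace Fermat.Agent.S17.H

open Polynomial Height NumberField IntermediateField Module

/-- The algebraic closure of ℚ is normal over ℚ (for the ℚ-algebra structure of a division ring
of characteristic zero). -/
theorem normal_algebraicClosure_rat : Normal ℚ (AlgebraicClosure ℚ) :=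
  haveI : IsAlgClosure ℚ (AlgebraicClosure ℚ) := ⟨inferInstance, isAlgebraic_Qb⟩
  IsAlgClosure.normal ℚ (AlgebraicClosure ℚ)

/-- Galois conjugates have the same height: a root of the minimal polynomial of `x` over ℚ has
the height of `x`. -/
theorem hQ_eq_of_aeval_minpoly_eq_zero {x y : AlgebraicClosure ℚ}
    (h : Polynomial.aeval y (minpoly ℚ x) = 0) : hQ y = hQ x := by
  have := normal_algebraicClosure_rat
  obtain ⟨σ, hσ⟩ := minpoly.exists_algEquiv_of_root' (isAlgebraic_Qb.isAlgebraic x) h
  rw [← hσ, hQ_algEquiv]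

/-- The sum of the heights of the roots of the minimal polynomial of `x` over ℚ is at most
`deg · hQ x`. -/
theorem sum_hQ_roots_minpoly_le (x : AlgebraicClosure ℚ) :
    ((((minpoly ℚ x).map (algebraMap ℚ (AlgebraicClosure ℚ))).roots.map hQ).sum) ≤
      ((minpoly ℚ x).natDegree : ℝ) * hQ x := by
  have hint : IsIntegral ℚ x := (isAlgebraic_Qb.isAlgebraic x).isIntegral
  set P : (AlgebraicClosure ℚ)[X] := (minpoly ℚ x).map (algebraMap ℚ (AlgebraicClosure ℚ)) with hP
  have hP0 : P ≠ 0 := Polynomial.map_ne_zero (minpoly.ne_zero hint)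
  have h1 : ∀ t ∈ P.roots.map hQ, t ≤ hQ x := by
    intro t ht
    obtain ⟨y, hy, rfl⟩ := Multiset.mem_map.mp ht
    have h2 : Polynomial.aeval y (minpoly ℚ x) = 0 := by
      have h3 := (Polynomial.mem_roots hP0).mp hy
      rwa [Polynomial.IsRoot.def, hP, Polynomial.eval_map_algebraMap] at h3
    exact (hQ_eq_of_aeval_minpoly_eq_zero h2).le
  have h4 := Multiset.sum_le_card_nsmul _ _ h1
  rw [Multiset.card_map, nsmul_eq_mul] at h4
  refine h4.trans (mul_le_mul_of_nonneg_right ?_ (hQ_nonneg x))
  have h5 : Multiset.card P.roots ≤ P.natDegree := P.card_roots'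
  rw [hP, Polynomial.natDegree_map] at h5
  exact_mod_cast h5

/-- The height of the coefficient vector of the minimal polynomial of an algebraic number of
degree `≤ d`. -/
theorem logHeight_coeff_minpoly_le {d : ℕ} {x : AlgebraicClosure ℚ}
    (hd : (minpoly ℚ x).natDegree ≤ d) :
    logHeight (fun i : Fin (d + 1) => (minpoly ℚ x).coeff i) ≤
      (d : ℝ) * hQ x + d * Real.log 2 := by
  have hint : IsIntegral ℚ x := (isAlgebraic_Qb.isAlgebraic x).isIntegral
  set P : (AlgebraicClosure ℚ)[X] := (minpoly ℚ x).map (algebraMap ℚ (AlgebraicClosure ℚ)) with hP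
  have hP0 : P ≠ 0 := Polynomial.map_ne_zero (minpoly.ne_zero hint)
  have hPd : P.natDegree ≤ d := by rw [hP, Polynomial.natDegree_map]; exact hd
  have hGM := hT_coeffVec_le_sum_hQ_roots hP0 hPd
  have hcoef : hT (fun i : Fin (d + 1) => P.coeff i) =
      logHeight (fun i : Fin (d + 1) => (minpoly ℚ x).coeff i) := by
    have h1 := hT_eq (algebraMap ℚ (AlgebraicClosure ℚ)) (fun i : Fin (d + 1) => (minpoly ℚ x).coeff i)
    rw [Module.finrank_self, Nat.cast_one, div_one] at h1
    rw [← h1]
    congr 1
    funext i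
    rw [hP, Polynomial.coeff_map]
  have hroots := sum_hQ_roots_minpoly_le x
  rw [← hP] at hroots
  have h2 : ((minpoly ℚ x).natDegree : ℝ) * hQ x ≤ (d : ℝ) * hQ x :=
    mul_le_mul_of_nonneg_right (by exact_mod_cast hd) (hQ_nonneg x)
  rw [← hcoef]
  linarith

/-- **Northcott's theorem**: there are only finitely many algebraic numbers of bounded degree and
bounded absolute logarithmic height. -/
theorem finite_setOf_natDegree_minpoly_le_and_hQ_le (d : ℕ) (B : ℝ) :
    {c : AlgebraicClosure ℚ | (minpoly ℚ c).natDegree ≤ d ∧ hQ c ≤ B}.Finite := by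
  classical
  set C : ℝ := (d : ℝ) * B + d * Real.log 2 with hC
  have hF : {q : ℚ | logHeight₁ q ≤ C}.Finite := NumberField.finite_setOfPred_logHeight₁_le ℚ C
  let T : Set ℚ[X] := {m | m.Monic ∧ m.natDegree ≤ d ∧
    logHeight (fun i : Fin (d + 1) => m.coeff i) ≤ C}
  have hT : T.Finite := by
    let φ : ℚ[X] → (Fin (d + 1) → ℚ) := fun m i => m.coeff i
    refine Set.Finite.of_finite_image (f := φ) ?_ ?_
    · refine (Set.Finite.pi' (fun _ : Fin (d + 1) => hF)).subset ?_
      rintro _ ⟨m, ⟨hm, hmd, hh⟩, rfl⟩ i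
      show logHeight₁ (m.coeff i) ≤ C
      have h1 : (![m.coeff i, 1] : Fin 2 → ℚ) = (fun j : Fin (d + 1) => m.coeff j) ∘
          ![i, ⟨m.natDegree, Nat.lt_succ_of_le hmd⟩] := by
        funext k
        fin_cases k
        · simp
        · simp [hm.coeff_natDegree]
      rw [logHeight₁_eq_logHeight, h1]
      exact (logHeight_comp_le _ _).trans hh
    · intro m hm m' hm' h
      ext n
      by_cases hn : n < d + 1
      · exact congrFun h ⟨n, hn⟩
      · rw [Polynomial.coeff_eq_zero_of_natDegree_lt (lt_of_le_of_lt hm.2.1 (by omega)),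
          Polynomial.coeff_eq_zero_of_natDegree_lt (lt_of_le_of_lt hm'.2.1 (by omega))]
  refine (Set.Finite.biUnion hT
    (fun m _ => m.rootSet_finite (AlgebraicClosure ℚ))).subset ?_
  rintro x ⟨hxd, hxB⟩
  have hint : IsIntegral ℚ x := (isAlgebraic_Qb.isAlgebraic x).isIntegral
  simp only [Set.mem_iUnion]
  refine ⟨minpoly ℚ x, ⟨minpoly.monic hint, hxd, ?_⟩, ?_⟩
  · refine (logHeight_coeff_minpoly_le hxd).trans ?_
    rw [hC]
    have := mul_le_mul_of_nonneg_left hxB (Nat.cast_nonneg (α := ℝ) d)
    linarith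
  · exact Polynomial.mem_rootSet.mpr ⟨minpoly.ne_zero hint, minpoly.aeval ℚ x⟩

/-- **Northcott's theorem**, in the binder order `(B : ℝ) (d : ℕ)`. -/
theorem finite_setOf_hQ_le_and_natDegree_minpoly_le (B : ℝ) (d : ℕ) :
    {c : AlgebraicClosure ℚ | hQ c ≤ B ∧ (minpoly ℚ c).natDegree ≤ d}.Finite :=
  (finite_setOf_natDegree_minpoly_le_and_hQ_le d B).subset fun _ h => ⟨h.2, h.1⟩

end Fermat.Agent.S17.H
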