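/-
S17 / strand H / leaf D4-HT, the height side (no curve in this file).

For an unramified fibre `P_1 .. P_n0` over `α` the fibre identity reads

  `∏_{i ≠ j} ⟨t, sig(P_i, P_j)⟩ = (det V)^2 * p^t(α)`

with `p^t` a fixed polynomial in `t` whose coefficients are polynomials in `X` of degree `≤ d`.
This file turns such an identity into the height inequality

  `∑_{i ≠ j} hT (sig(P_i, P_j)) ≤ C + d * hQ α`

* `linForm c = ∑ a, C (c a) * X a`, the linear form `⟨t, c⟩`, and `hT` of its coefficient tuple;
* Gelfond's inequality for a product of linear forms (`abs_hT_mvCoeffTuple_prod_linForm_le`);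
* scaling by a non-zero constant (`hT_mvCoeffTuple_C_mul`);
* the one-variable form of the height bound for polynomial maps (`exists_hT_polyEval_le`);
* the exit `exists_sum_hT_le` and three forms of its hypothesis.
-/
import Mathlib
import Fermat.Agent.S17.H.A.Abs
import Fermat.Agent.S17.H.A.Eval
import Fermat.Agent.S17.H.AbsHeight.Tuple
import Fermat.Agent.S17.H.AbsHeight.Gelfond

set_option autoImplicit false

namespace Fermat.Agent.S17.H.AbsHeight.FibreHeight

open Height
open Fermat.Agent.S17.H
open Fermat.Agent.S17.H.AbsHeight.GelfondNF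
open Fermat.Agent.S17.H.AbsHeight.Gelfond

local notation "Qb" => AlgebraicClosure ℚ

/-! ### Tuples: padding by zeros -/

/-- Padding a tuple by zeros does not change its height. -/
theorem hT_sumElim_zero {ι ι' : Type*} [Finite ι] [Finite ι'] (x : ι → Qb) :
    hT (Sum.elim x (0 : ι' → Qb)) = hT x := by
  obtain ⟨A, hA, x', hx⟩ := exists_lift_Qb x
  have h1 : x = fun i => (x' i : Qb) := funext fun i => (hx i).symm
  have h2 : Sum.elim x (0 : ι' → Qb) =
      fun s => ((Sum.elim x' (0 : ι' → A) s : A) : Qb) := by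
    funext s
    cases s with
    | inl i => simp [h1]
    | inr j => simp
  rw [h2, hT_coe, logHeight_sumElim_zero_eq, ← hT_coe, ← h1]

/-- A tuple and its restriction along an injective map whose range contains the non-zero
entries have the same height. -/
theorem hT_comp_of_injective {ι ι' : Type*} [Finite ι] [Finite ι'] (j : ι' → ι)
    (hj : Function.Injective j) (x : ι → Qb) (hx : ∀ i, x i ≠ 0 → i ∈ Set.range j) :
    hT (x ∘ j) = hT x := by
  classical
  let e : ι' ⊕ ((Set.range j)ᶜ : Set ι) ≃ ι :=
    ((Equiv.ofInjective j hj).sumCongr (Equiv.refl _)).trans (Equiv.Set.sumCompl (Set.range j))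
  have he : x ∘ e = Sum.elim (x ∘ j) (0 : ((Set.range j)ᶜ : Set ι) → Qb) := by
    funext s
    cases s with
    | inl a => simp [e]
    | inr b =>
      have hb : x b.1 = 0 := by
        by_contra h
        exact b.2 (hx _ h)
      simpa [e] using hb
  rw [← hT_comp_equiv e x, he, hT_sumElim_zero]

/-! ### Linear forms -/

section linForm

variable {σ : Type*} [Fintype σ] {K : Type*} [Field K]

/-- The linear form `⟨t, c⟩ = ∑ a, c a * t_a` in the formal variables `t`. -/
noncomputable def linForm (c : σ → K) : MvPolynomial σ K :=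
  ∑ a, MvPolynomial.C (c a) * MvPolynomial.X a

theorem coeff_linForm [DecidableEq σ] (c : σ → K) (m : σ →₀ ℕ) :
    (linForm c).coeff m = ∑ a, if Finsupp.single a 1 = m then c a else 0 := by
  unfold linForm
  rw [MvPolynomial.coeff_sum]
  refine Finset.sum_congr rfl fun a _ => ?_
  rw [MvPolynomial.coeff_C_mul, MvPolynomial.coeff_X]
  split_ifs <;> simp

theorem coeff_linForm_single (c : σ → K) (a : σ) :
    (linForm c).coeff (Finsupp.single a 1) = c a := by
  classical
  rw [coeff_linForm]
  have h : ∀ b : σ, (if Finsupp.single b 1 = Finsupp.single a 1 then c b else 0) =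
      if b = a then c b else 0 := by
    intro b
    by_cases hb : b = a
    · simp [hb]
    · have : Finsupp.single b 1 ≠ Finsupp.single a 1 := fun h =>
        hb (Finsupp.single_left_injective one_ne_zero h)
      simp [hb, this]
  simp only [h, Finset.sum_ite_eq', Finset.mem_univ, if_true]

theorem exists_of_coeff_linForm_ne_zero (c : σ → K) {m : σ →₀ ℕ}
    (hm : (linForm c).coeff m ≠ 0) : ∃ a, m = Finsupp.single a 1 ∧ c a ≠ 0 := by
  classical
  rw [coeff_linForm] at hm
  obtain ⟨a, _, ha⟩ := Finset.exists_ne_zero_of_sum_ne_zero hm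
  by_cases h : Finsupp.single a 1 = m
  · rw [if_pos h] at ha
    exact ⟨a, h.symm, ha⟩
  · rw [if_neg h] at ha
    exact absurd rfl ha

theorem linForm_ne_zero {c : σ → K} (hc : c ≠ 0) : linForm c ≠ 0 := by
  obtain ⟨a, ha⟩ := Function.ne_iff.mp hc
  intro h
  apply ha
  rw [← coeff_linForm_single c a, h, MvPolynomial.coeff_zero]
  rfl

theorem totalDegree_linForm_le (c : σ → K) : (linForm c).totalDegree ≤ 1 := by
  unfold linForm
  refine (MvPolynomial.totalDegree_finsetSum _ _).trans (Finset.sup_le fun a _ => ?_)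
  refine (MvPolynomial.totalDegree_mul _ _).trans ?_
  rw [MvPolynomial.totalDegree_C, MvPolynomial.totalDegree_X, zero_add]

theorem eval_linForm (τ : σ → K) (c : σ → K) :
    MvPolynomial.eval τ (linForm c) = ∑ a, c a * τ a := by
  unfold linForm
  simp

end linForm

section heights

variable {σ : Type*} [Fintype σ]

/-- The height of the coefficient tuple of the linear form `⟨t, c⟩` is the height of `c`. -/
theorem hT_mvCoeffTuple_linForm (c : σ → Qb) : hT (mvCoeffTuple (linForm c)) = hT c := by
  have hex : ∀ m : (linForm c).support, ∃ a, m.1 = Finsupp.single a 1 ∧ c a ≠ 0 := fun m =>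
    exists_of_coeff_linForm_ne_zero c (MvPolynomial.mem_support_iff.mp m.2)
  choose j hj hj' using hex
  have hinj : Function.Injective j := by
    intro m m' h
    apply Subtype.ext
    rw [hj m, hj m', h]
  have hcomp : mvCoeffTuple (linForm c) = c ∘ j := by
    funext m
    rw [mvCoeffTuple_apply, Function.comp_apply]
    conv_lhs => rw [hj m]
    exact coeff_linForm_single c (j m)
  rw [hcomp]
  refine hT_comp_of_injective j hinj c fun a ha => ?_
  have hmem : Finsupp.single a 1 ∈ (linForm c).support := by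
    rw [MvPolynomial.mem_support_iff, coeff_linForm_single]
    exact ha
  refine ⟨⟨_, hmem⟩, ?_⟩
  have := hj ⟨_, hmem⟩
  exact (Finsupp.single_left_injective one_ne_zero this).symm

/-- **Gelfond's inequality for a product of linear forms**: the height of the coefficient tuple
of `∏ i ∈ S, ⟨t, c i⟩` is `∑ i ∈ S, hT (c i)` up to a constant depending only on the number of
factors and of variables. -/
theorem abs_hT_mvCoeffTuple_prod_linForm_le {ι : Type*} (S : Finset ι) (c : ι → σ → Qb)
    (hc : ∀ i ∈ S, c i ≠ 0) :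
    |hT (mvCoeffTuple (∏ i ∈ S, linForm (c i))) - ∑ i ∈ S, hT (c i)| ≤
      S.card * gelfondConst ((S.card + 1) ^ Fintype.card σ) := by
  have hD : ∑ i ∈ S, (linForm (c i)).totalDegree ≤ S.card := by
    calc ∑ i ∈ S, (linForm (c i)).totalDegree ≤ ∑ _i ∈ S, 1 :=
          Finset.sum_le_sum fun i _ => totalDegree_linForm_le (c i)
      _ = S.card := by simp
  have h := abs_hT_mvCoeffTuple_finset_prod_le S (fun i => linForm (c i))
    (fun i hi => linForm_ne_zero (hc i hi)) hD
  have hsum : ∑ i ∈ S, hT (mvCoeffTuple (linForm (c i))) = ∑ i ∈ S, hT (c i) :=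
    Finset.sum_congr rfl fun i _ => hT_mvCoeffTuple_linForm (c i)
  rw [hsum] at h
  exact h

omit [Fintype σ] in
/-- Multiplying a polynomial by a non-zero constant does not change the height of its
coefficient tuple. -/
theorem hT_mvCoeffTuple_C_mul {u : Qb} (hu : u ≠ 0) (f : MvPolynomial σ Qb) :
    hT (mvCoeffTuple (MvPolynomial.C u * f)) = hT (mvCoeffTuple f) := by
  let e : (MvPolynomial.C u * f).support ≃ f.support :=
    Equiv.subtypeEquivRight fun s => by
      rw [MvPolynomial.mem_support_iff, MvPolynomial.mem_support_iff, MvPolynomial.coeff_C_mul]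
      exact mul_ne_zero_iff_left hu
  have h1 : mvCoeffTuple (MvPolynomial.C u * f) = (u • mvCoeffTuple f) ∘ e := by
    funext s
    show (MvPolynomial.C u * f).coeff s.1 = u * f.coeff s.1
    rw [MvPolynomial.coeff_C_mul]
  rw [h1, hT_comp_equiv, hT_smul _ hu]

end heights

/-! ### One variable: the height of the values of finitely many polynomials -/

section polyEval

/-- The homogenisation in degree `d` of a polynomial in one variable. -/
noncomputable def homPoly (d : ℕ) (q : Polynomial Qb) : MvPolynomial (Fin 2) Qb :=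
  ∑ k ∈ Finset.range (d + 1),
    MvPolynomial.C (q.coeff k) * MvPolynomial.X 0 ^ k * MvPolynomial.X 1 ^ (d - k)

theorem homPoly_isHomogeneous (d : ℕ) (q : Polynomial Qb) : (homPoly d q).IsHomogeneous d := by
  unfold homPoly
  refine MvPolynomial.IsHomogeneous.sum _ _ _ fun k hk => ?_
  have hk' : k ≤ d := Nat.lt_succ_iff.mp (Finset.mem_range.mp hk)
  have h := ((MvPolynomial.isHomogeneous_C (Fin 2) (q.coeff k)).mul
    ((MvPolynomial.isHomogeneous_X Qb (0 : Fin 2)).pow k)).mul
    ((MvPolynomial.isHomogeneous_X Qb (1 : Fin 2)).pow (d - k))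
  have hd : 0 + 1 * k + 1 * (d - k) = d := by omega
  rw [hd] at h
  exact h

theorem eval_homPoly {d : ℕ} {q : Polynomial Qb} (hq : q.natDegree ≤ d) (α : Qb) :
    MvPolynomial.eval ![α, 1] (homPoly d q) = q.eval α := by
  unfold homPoly
  rw [Polynomial.eval_eq_sum_range' (Nat.lt_succ_of_le hq), map_sum]
  refine Finset.sum_congr rfl fun k _ => ?_
  simp

/-- **Height of the values of finitely many polynomials in one variable**:
`hT (q_k(α))_k ≤ C + d * hQ α` when all `q_k` have degree `≤ d`. -/
theorem exists_hT_polyEval_le {κ : Type*} [Fintype κ] (q : κ → Polynomial Qb) {d : ℕ}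
    (hq : ∀ k, (q k).natDegree ≤ d) :
    ∃ C : ℝ, ∀ α : Qb, hT (fun k => (q k).eval α) ≤ C + d * hQ α := by
  obtain ⟨C, hC⟩ := hT_eval_le (fun k => homPoly d (q k)) fun k => homPoly_isHomogeneous d (q k)
  refine ⟨C, fun α => ?_⟩
  have h := hC ![α, 1]
  have h1 : (fun k => MvPolynomial.eval ![α, 1] (homPoly d (q k))) =
      fun k => (q k).eval α := funext fun k => eval_homPoly (hq k) α
  rw [h1] at h
  exact h

end polyEval

/-! ### The exit -/

section exit

variable {σ : Type*} [Fintype σ]

/-- **The height side of the fibre inequality.**  Let `q` be a finite family of polynomials of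
degree `≤ d`.  If a product of linear forms `∏ i ∈ S, ⟨t, c i⟩` is a non-zero constant times a
polynomial `Q` in `t` all of whose coefficients are values `q_k(α)`, then
`∑ i ∈ S, hT (c i) ≤ C + d * hQ α`, with `C` independent of `α`, `c`, `u`, `Q`. -/
theorem exists_sum_hT_le {κ : Type*} [Fintype κ] (q : κ → Polynomial Qb) {d : ℕ}
    (hq : ∀ k, (q k).natDegree ≤ d) {ι : Type*} (S : Finset ι) :
    ∃ C : ℝ, ∀ (α : Qb) (c : ι → σ → Qb) (u : Qb) (Q : MvPolynomial σ Qb),
      (∀ i ∈ S, c i ≠ 0) → u ≠ 0 →
      (∀ m, Q.coeff m ≠ 0 → ∃ k, Q.coeff m = (q k).eval α) →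
      ∏ i ∈ S, linForm (c i) = MvPolynomial.C u * Q →
      ∑ i ∈ S, hT (c i) ≤ C + d * hQ α := by
  obtain ⟨C₁, hC₁⟩ := exists_hT_polyEval_le q hq
  refine ⟨S.card * gelfondConst ((S.card + 1) ^ Fintype.card σ) + C₁, ?_⟩
  intro α c u Q hc hu hQ hid
  have h1 := abs_le.mp (abs_hT_mvCoeffTuple_prod_linForm_le S c hc)
  have h2 : hT (mvCoeffTuple (∏ i ∈ S, linForm (c i))) = hT (mvCoeffTuple Q) := by
    rw [hid, hT_mvCoeffTuple_C_mul hu]
  have h3 : hT (mvCoeffTuple Q) ≤ hT (fun k => (q k).eval α) := by
    have hex : ∀ m : Q.support, ∃ k, Q.coeff m.1 = (q k).eval α := fun m =>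
      hQ m.1 (MvPolynomial.mem_support_iff.mp m.2)
    choose f hf using hex
    have hcomp : mvCoeffTuple Q = (fun k => (q k).eval α) ∘ f := funext fun m => hf m
    rw [hcomp]
    exact Tuple.hT_comp_le f _
  have h4 := hC₁ α
  linarith [h1.1, h1.2]

/-- The exit for a polynomial in `t` with coefficients in `Qb[X]`, specialised at `X = α`. -/
theorem exists_sum_hT_le_of_map (P : MvPolynomial σ (Polynomial Qb)) {d : ℕ}
    (hP : ∀ m, (P.coeff m).natDegree ≤ d) {ι : Type*} (S : Finset ι) :
    ∃ C : ℝ, ∀ (α : Qb) (c : ι → σ → Qb) (u : Qb),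
      (∀ i ∈ S, c i ≠ 0) → u ≠ 0 →
      ∏ i ∈ S, linForm (c i) =
        MvPolynomial.C u * MvPolynomial.map (Polynomial.evalRingHom α) P →
      ∑ i ∈ S, hT (c i) ≤ C + d * hQ α := by
  obtain ⟨C, hC⟩ := exists_sum_hT_le (σ := σ) (fun m : P.support => P.coeff m.1)
    (fun m => hP m.1) S
  refine ⟨C, fun α c u hc hu hid => hC α c u _ hc hu (fun m hm => ?_) hid⟩
  rw [MvPolynomial.coeff_map] at hm ⊢
  have hm' : m ∈ P.support := by
    rw [MvPolynomial.mem_support_iff]
    intro h
    exact hm (by rw [h, map_zero])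
  exact ⟨⟨m, hm'⟩, rfl⟩

omit [Fintype σ] in
/-- Specialising `t` at a scalar point and then `X` at `α`, or `X` at `α` and then `t`. -/
theorem eval_eval_C (P : MvPolynomial σ (Polynomial Qb)) (τ : σ → Qb) (α : Qb) :
    Polynomial.eval α (MvPolynomial.eval (fun a => Polynomial.C (τ a)) P) =
      MvPolynomial.eval τ (MvPolynomial.map (Polynomial.evalRingHom α) P) := by
  rw [MvPolynomial.eval_map, ← Polynomial.coe_evalRingHom, ← MvPolynomial.eval₂_id,
    MvPolynomial.eval₂_comp_left]
  congr 1
  funext a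
  simp

/-- The exit with the fibre identity given at every scalar point `τ` (the polynomial identity
in `t` follows because `Qb` is infinite). -/
theorem exists_sum_hT_le_of_forall_eval (P : MvPolynomial σ (Polynomial Qb)) {d : ℕ}
    (hP : ∀ m, (P.coeff m).natDegree ≤ d) {ι : Type*} (S : Finset ι) :
    ∃ C : ℝ, ∀ (α : Qb) (c : ι → σ → Qb) (u : Qb),
      (∀ i ∈ S, c i ≠ 0) → u ≠ 0 →
      (∀ τ : σ → Qb, ∏ i ∈ S, ∑ a, c i a * τ a =
        u * Polynomial.eval α (MvPolynomial.eval (fun a => Polynomial.C (τ a)) P)) →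
      ∑ i ∈ S, hT (c i) ≤ C + d * hQ α := by
  obtain ⟨C, hC⟩ := exists_sum_hT_le_of_map P hP S
  refine ⟨C, fun α c u hc hu hid => hC α c u hc hu ?_⟩
  apply MvPolynomial.funext
  intro τ
  rw [map_prod, map_mul, MvPolynomial.eval_C, ← eval_eval_C, ← hid τ]
  exact Finset.prod_congr rfl fun i _ => eval_linForm τ (c i)

end exit

end Fermat.Agent.S17.H.AbsHeight.FibreHeight
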